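/-
S35 (ALG-PUSH), formal part (helper28).

For a prime `ℓ ∤ N` the norms of an ARBITRARY element `x` of `F_{Nℓ}` down to `F_N` along the two
degeneracy maps `α` (inclusion) and `β` (`q ↦ q^ℓ`) have the `q`-expansions

  `N_α(x)(q^ℓ) = x(q^ℓ) · ∏_{b<ℓ} (w x)(ζ^b q)`,     `N_β(x)(q^ℓ) = (w x)(q^ℓ) · ∏_{b<ℓ} x(ζ^b q)`,

where `w` is the formal Atkin–Lehner involution of `F_{Nℓ}` (landed `S42/H13`,
`exists_atkinLehner_swap`) and `ζ` a primitive `ℓ`-th root of unity.  This is the landed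
`S37/H65` `exists_last_conjugate` (which holds for every `x`) plus the identification of its last
conjugate with `θ ∘ w`.
-/
import Mathlib
import Fermat.Agent.S42.H13.HeckeNorm

set_option autoImplicit false
set_option linter.style.haveILetI false
set_option linter.unusedSectionVars false

noncomputable section

namespace Fermat.Agent.S35.H28

open ModularCurve AlgebraicCurve IntermediateField Fermat.Agent.S18.H66 Fermat.Agent.S37.H65
  Fermat.Agent.S28 Fermat.Agent.S42.H13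

variable (N ℓ : ℕ) [NeZero N] [NeZero ℓ]

attribute [local instance] Fermat.Agent.S37.H65.algBeta Fermat.Agent.S37.H65.algOm

/-- The formal Atkin–Lehner involution `W_ℓ` of `F_{Nℓ}` (`ℓ` prime, `ℓ ∤ N`). -/
def swapW (hℓ : ℓ.Prime) (hℓN : ¬ ℓ ∣ N) :
    ↥(modularFunctionFieldBar (N * ℓ)) ≃+* ↥(modularFunctionFieldBar (N * ℓ)) :=
  Classical.choose (exists_atkinLehner_swap N ℓ hℓ hℓN)

theorem swapW_alpha (hℓ : ℓ.Prime) (hℓN : ¬ ℓ ∣ N) (c : ↥(modularFunctionFieldBar N)) :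
    swapW N ℓ hℓ hℓN (heckeAlphaBar Kb N ℓ c) = heckeBetaBar Kb N ℓ c :=
  (Classical.choose_spec (exists_atkinLehner_swap N ℓ hℓ hℓN)).1 c

theorem swapW_beta (hℓ : ℓ.Prime) (hℓN : ¬ ℓ ∣ N) (c : ↥(modularFunctionFieldBar N)) :
    swapW N ℓ hℓ hℓN (heckeBetaBar Kb N ℓ c) = heckeAlphaBar Kb N ℓ c :=
  (Classical.choose_spec (exists_atkinLehner_swap N ℓ hℓ hℓN)).2 c

theorem swapW_algebraMap (hℓ : ℓ.Prime) (hℓN : ¬ ℓ ∣ N) (a : Kb) :
    swapW N ℓ hℓ hℓN (algebraMap Kb ↥(modularFunctionFieldBar (N * ℓ)) a) =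
      algebraMap Kb ↥(modularFunctionFieldBar (N * ℓ)) a := by
  calc swapW N ℓ hℓ hℓN (algebraMap Kb ↥(modularFunctionFieldBar (N * ℓ)) a)
      = swapW N ℓ hℓ hℓN (heckeAlphaBar Kb N ℓ (algebraMap Kb ↥(modularFunctionFieldBar N) a)) := by
        rw [(heckeAlphaBar Kb N ℓ).commutes a]
    _ = heckeBetaBar Kb N ℓ (algebraMap Kb ↥(modularFunctionFieldBar N) a) := swapW_alpha N ℓ hℓ hℓN _
    _ = algebraMap Kb ↥(modularFunctionFieldBar (N * ℓ)) a := (heckeBetaBar Kb N ℓ).commutes a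

/-- Every generator `j(q^d)`, `d ∣ Nℓ`, of `F_{Nℓ}` is `α c` or `β c`. -/
theorem gen_alpha_or_beta (hℓ : ℓ.Prime) {x : LaurentSeries Kb}
    (hx : x ∈ divisorExpansionsC Kb (N * ℓ)) :
    ∃ c : ↥(modularFunctionFieldBar N),
      (⟨x, divisorExpansionsC_subset (N * ℓ) hx⟩ : ↥(modularFunctionFieldBar (N * ℓ))) =
        heckeAlphaBar Kb N ℓ c ∨
      (⟨x, divisorExpansionsC_subset (N * ℓ) hx⟩ : ↥(modularFunctionFieldBar (N * ℓ))) =
        heckeBetaBar Kb N ℓ c := by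
  obtain ⟨c, hc | hc⟩ := gen_cases N ℓ hℓ hx
  · exact ⟨c, Or.inl (Subtype.ext (by rw [coe_heckeAlphaBar]; exact hc))⟩
  · exact ⟨c, Or.inr (Subtype.ext (by rw [coe_heckeBetaBar]; exact hc))⟩

/-- Two ring homomorphisms out of `F_{Nℓ}` agreeing on `α(F_N)` and `β(F_N)` are equal. -/
theorem ringHom_ext_alpha_beta {Ω : Type*} [Field Ω] (hℓ : ℓ.Prime)
    (g₁ g₂ : ↥(modularFunctionFieldBar (N * ℓ)) →+* Ω)
    (hα : ∀ c : ↥(modularFunctionFieldBar N),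
      g₁ (heckeAlphaBar Kb N ℓ c) = g₂ (heckeAlphaBar Kb N ℓ c))
    (hβ : ∀ c : ↥(modularFunctionFieldBar N),
      g₁ (heckeBetaBar Kb N ℓ c) = g₂ (heckeBetaBar Kb N ℓ c)) : g₁ = g₂ := by
  refine ringHom_ext_of_le_adjoin (modularFunctionFieldBar (N * ℓ))
    (divisorExpansionsC_subset (N * ℓ)) (le_adjoin_divisorExpansionsC (N * ℓ)) g₁ g₂ ?_ ?_
  · intro a
    rw [← (heckeAlphaBar Kb N ℓ).commutes a]
    exact hα _
  · intro y hy
    obtain ⟨c, hc | hc⟩ := gen_alpha_or_beta N ℓ hℓ hy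
    · rw [hc]; exact hα c
    · rw [hc]; exact hβ c

/-- `w` is an involution. -/
theorem swapW_swapW (hℓ : ℓ.Prime) (hℓN : ¬ ℓ ∣ N) (x : ↥(modularFunctionFieldBar (N * ℓ))) :
    swapW N ℓ hℓ hℓN (swapW N ℓ hℓ hℓN x) = x := by
  have h : ((swapW N ℓ hℓ hℓN : ↥(modularFunctionFieldBar (N * ℓ)) →+* _).comp
      (swapW N ℓ hℓ hℓN : ↥(modularFunctionFieldBar (N * ℓ)) →+* _)) = RingHom.id _ := by
    refine ringHom_ext_alpha_beta N ℓ hℓ _ _ (fun c => ?_) (fun c => ?_)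
    · show swapW N ℓ hℓ hℓN (swapW N ℓ hℓ hℓN (heckeAlphaBar Kb N ℓ c)) = heckeAlphaBar Kb N ℓ c
      rw [swapW_alpha, swapW_beta]
    · show swapW N ℓ hℓ hℓN (swapW N ℓ hℓ hℓN (heckeBetaBar Kb N ℓ c)) = heckeBetaBar Kb N ℓ c
      rw [swapW_beta, swapW_alpha]
  exact congrArg (fun g : ↥(modularFunctionFieldBar (N * ℓ)) →+*
    ↥(modularFunctionFieldBar (N * ℓ)) => g x) h

/-- The norm of `F_{Nℓ}` over `α(F_N)`. -/
def normAlpha (x : ↥(modularFunctionFieldBar (N * ℓ))) : ↥(modularFunctionFieldBar N) :=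
  letI := algebraAlong (heckeAlphaBar Kb N ℓ)
  Algebra.norm ↥(modularFunctionFieldBar N) x

/-- The norm of `F_{Nℓ}` over `β(F_N)`. -/
def normBeta (x : ↥(modularFunctionFieldBar (N * ℓ))) : ↥(modularFunctionFieldBar N) :=
  letI := algebraAlong (heckeBetaBar Kb N ℓ)
  Algebra.norm ↥(modularFunctionFieldBar N) x

theorem normAlpha_def (x : ↥(modularFunctionFieldBar (N * ℓ))) :
    normAlpha N ℓ x = (letI := algebraAlong (heckeAlphaBar Kb N ℓ);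
      Algebra.norm ↥(modularFunctionFieldBar N) x) := rfl

theorem normBeta_def (x : ↥(modularFunctionFieldBar (N * ℓ))) :
    normBeta N ℓ x = (letI := algebraAlong (heckeBetaBar Kb N ℓ);
      Algebra.norm ↥(modularFunctionFieldBar N) x) := rfl

theorem normAlpha_eq_normBeta_swapW (hℓ : ℓ.Prime) (hℓN : ¬ ℓ ∣ N)
    (x : ↥(modularFunctionFieldBar (N * ℓ))) :
    normAlpha N ℓ x = normBeta N ℓ (swapW N ℓ hℓ hℓN x) :=
  norm_along_eq_of_swap (heckeAlphaBar Kb N ℓ) (heckeBetaBar Kb N ℓ) (swapW N ℓ hℓ hℓN)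
    (swapW_alpha N ℓ hℓ hℓN) x

theorem normBeta_eq_normAlpha_swapW (hℓ : ℓ.Prime) (hℓN : ¬ ℓ ∣ N)
    (x : ↥(modularFunctionFieldBar (N * ℓ))) :
    normBeta N ℓ x = normAlpha N ℓ (swapW N ℓ hℓ hℓN x) := by
  rw [normAlpha_eq_normBeta_swapW N ℓ hℓ hℓN, swapW_swapW]

/-- **The `β`-norm of an arbitrary element as a `q`-series**:
`N_β(x)(q^ℓ) = (w x)(q^ℓ) · ∏_{b<ℓ} x(ζ^b q)`. -/
theorem qExpand_normBeta (hℓ : ℓ.Prime) (hℓN : ¬ ℓ ∣ N) (ζ : Kbˣ) (hζ : IsPrimitiveRoot ζ ℓ)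
    (x : ↥(modularFunctionFieldBar (N * ℓ))) :
    qExpand Kb ℓ ((normBeta N ℓ x : ↥(modularFunctionFieldBar N)) : LaurentSeries Kb) =
      qExpand Kb ℓ ((swapW N ℓ hℓ hℓN x : ↥(modularFunctionFieldBar (N * ℓ))) : LaurentSeries Kb) *
        ∏ b ∈ Finset.range ℓ, qScale (ζ ^ b) (x : LaurentSeries Kb) := by
  obtain ⟨ψ, hψα, hψN⟩ := exists_last_conjugate N ℓ hℓ hℓN ζ hζ
  -- the last conjugate is `θ ∘ w`
  have hψw : (ψ : ↥(modularFunctionFieldBar (N * ℓ)) →+* Om ℓ) =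
      (thetaHom N ℓ).comp (swapW N ℓ hℓ hℓN : ↥(modularFunctionFieldBar (N * ℓ)) →+* _) := by
    refine ringHom_ext_alpha_beta N ℓ hℓ _ _ (fun c => ?_) (fun c => ?_)
    · show ψ (heckeAlphaBar Kb N ℓ c) = thetaHom N ℓ (swapW N ℓ hℓ hℓN (heckeAlphaBar Kb N ℓ c))
      rw [hψα c, swapW_alpha, thetaHom_apply, coe_heckeBetaBar, qExpand_qExpand]
    · show ψ (heckeBetaBar Kb N ℓ c) = thetaHom N ℓ (swapW N ℓ hℓ hℓN (heckeBetaBar Kb N ℓ c))
      rw [swapW_beta, thetaHom_apply, coe_heckeAlphaBar]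
      exact ψ.commutes c
  have hψx : ψ x = iota ℓ (qExpand Kb ℓ
      ((swapW N ℓ hℓ hℓN x : ↥(modularFunctionFieldBar (N * ℓ))) : LaurentSeries Kb)) := by
    have := congrArg (fun g : ↥(modularFunctionFieldBar (N * ℓ)) →+* Om ℓ => g x) hψw
    exact this
  apply iota_injective ℓ
  have h := hψN x
  rw [algebraMap_Om_apply, hψx] at h
  rw [normBeta_def, h, map_mul, map_prod]
  rfl

/-- **The `α`-norm of an arbitrary element as a `q`-series**: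
`N_α(x)(q^ℓ) = x(q^ℓ) · ∏_{b<ℓ} (w x)(ζ^b q)`. -/
theorem qExpand_normAlpha (hℓ : ℓ.Prime) (hℓN : ¬ ℓ ∣ N) (ζ : Kbˣ) (hζ : IsPrimitiveRoot ζ ℓ)
    (x : ↥(modularFunctionFieldBar (N * ℓ))) :
    qExpand Kb ℓ ((normAlpha N ℓ x : ↥(modularFunctionFieldBar N)) : LaurentSeries Kb) =
      qExpand Kb ℓ (x : LaurentSeries Kb) *
        ∏ b ∈ Finset.range ℓ, qScale (ζ ^ b)
          ((swapW N ℓ hℓ hℓN x : ↥(modularFunctionFieldBar (N * ℓ))) : LaurentSeries Kb) := by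
  rw [normAlpha_eq_normBeta_swapW N ℓ hℓ hℓN, qExpand_normBeta N ℓ hℓ hℓN ζ hζ, swapW_swapW]

end Fermat.Agent.S35.H28
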