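/-
S35 (ALG-PUSH), analytic dictionary for the norm along `α` (helper28).

For a prime `ℓ ∤ N`, a polynomial `C` in the `j_d`, `d ∣ Nℓ`, and `P', Q'` at level `N` with
`evF N P' / evF N Q' = N_α(evF (Nℓ) C)`:

  `Θ_N(P')(τ) = Θ_N(Q')(τ) · Θ_{Nℓ}(C)(τ) · ∏_{b<ℓ} Θ_{Nℓ}(C)(γ_b τ)`,

where `γ_b = [[x, y], [N, N b + ℓ]] ∈ Γ₀(N)` (`b < ℓ`) are, together with `1`, representatives of
`Γ₀(Nℓ) \ Γ₀(N)`.
-/
import Mathlib
import Fermat.Agent.S29.H28.ThetaHecke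
import Fermat.Agent.S35.H28.NormFormal

set_option autoImplicit false
set_option linter.style.haveILetI false
set_option linter.unusedSectionVars false

open UpperHalfPlane Filter Topology ModularCurve CongruenceSubgroup
open scoped MatrixGroups Manifold

noncomputable section

namespace Fermat.Agent.S35.H28

open Fermat.Agent.S24 Fermat.Agent.S24.H88 Fermat.Agent.S24.H59inf Fermat.Agent.S29.H28

variable (N ℓ : ℕ) [NeZero N] [NeZero ℓ]

/-! ### The swap on divisors and on polynomials -/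

theorem dvd_of_dvd_mul_of_not_dvd (hℓ : ℓ.Prime) {d : ℕ} (hd : d ∣ N * ℓ) (h : ¬ ℓ ∣ d) :
    d ∣ N :=
  (((Nat.Prime.coprime_iff_not_dvd hℓ).mpr h).symm).dvd_of_dvd_mul_right hd

/-- The swap `d ↦ ℓ d` (`ℓ ∤ d`), `ℓ d' ↦ d'` on the divisors of `N ℓ`. -/
def swapDiv (hℓ : ℓ.Prime) (d : (N * ℓ).divisors) : (N * ℓ).divisors :=
  if h : ℓ ∣ (d : ℕ) then
    ⟨(d : ℕ) / ℓ, Nat.mem_divisors.mpr
      ⟨(Nat.div_dvd_of_dvd h).trans (Nat.dvd_of_mem_divisors d.2), NeZero.ne _⟩⟩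
  else
    ⟨ℓ * (d : ℕ), Nat.mem_divisors.mpr
      ⟨(Nat.mul_dvd_mul_left ℓ
          (dvd_of_dvd_mul_of_not_dvd N ℓ hℓ (Nat.dvd_of_mem_divisors d.2) h)).trans
            (dvd_of_eq (mul_comm ℓ N)), NeZero.ne _⟩⟩

theorem coe_swapDiv_of_dvd (hℓ : ℓ.Prime) (d : (N * ℓ).divisors) (h : ℓ ∣ (d : ℕ)) :
    ((swapDiv N ℓ hℓ d : (N * ℓ).divisors) : ℕ) = (d : ℕ) / ℓ := by
  rw [swapDiv, dif_pos h]

theorem coe_swapDiv_of_not_dvd (hℓ : ℓ.Prime) (d : (N * ℓ).divisors) (h : ¬ ℓ ∣ (d : ℕ)) :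
    ((swapDiv N ℓ hℓ d : (N * ℓ).divisors) : ℕ) = ℓ * (d : ℕ) := by
  rw [swapDiv, dif_neg h]

theorem qExpand_congr' {a b : ℕ} [NeZero a] [NeZero b] (h : a = b) (x : LaurentSeries Kbar) :
    qExpand Kbar a x = qExpand Kbar b x := by
  subst h
  rfl

/-- The formal Atkin–Lehner involution on the generators. -/
theorem swapW_jF (hℓ : ℓ.Prime) (hℓN : ¬ ℓ ∣ N) (d : (N * ℓ).divisors) :
    swapW N ℓ hℓ hℓN (jF (N * ℓ) d) = jF (N * ℓ) (swapDiv N ℓ hℓ d) := by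
  by_cases h : ℓ ∣ (d : ℕ)
  · obtain ⟨d', hd'⟩ := h
    have hd'0 : d' ≠ 0 := by
      rintro rfl
      exact (NeZero.ne (d : ℕ)) (by rw [hd', mul_zero])
    haveI : NeZero d' := ⟨hd'0⟩
    have hd'N : d' ∣ N := by
      have := Nat.dvd_of_mem_divisors d.2
      rw [hd', mul_comm N ℓ] at this
      exact Nat.dvd_of_mul_dvd_mul_left hℓ.pos this
    have e1 : jF (N * ℓ) d = heckeBetaBar Kbar N ℓ (Fermat.Agent.S37.H65.jEl N d' hd'N) := by
      apply Subtype.ext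
      rw [coe_jF, coe_heckeBetaBar]
      show _ = qExpand Kbar ℓ (qExpand Kbar d' (jqModC Kbar))
      rw [qExpand_qExpand]
      exact qExpand_congr' hd' _
    rw [e1, swapW_beta]
    apply Subtype.ext
    rw [coe_heckeAlphaBar, coe_jF]
    show qExpand Kbar d' (jqModC Kbar) = _
    refine qExpand_congr' ?_ _
    rw [coe_swapDiv_of_dvd N ℓ hℓ d ⟨d', hd'⟩, hd', Nat.mul_div_cancel_left _ hℓ.pos]
  · have hdN : (d : ℕ) ∣ N := dvd_of_dvd_mul_of_not_dvd N ℓ hℓ (Nat.dvd_of_mem_divisors d.2) h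
    have e1 : jF (N * ℓ) d = heckeAlphaBar Kbar N ℓ (Fermat.Agent.S37.H65.jEl N (d : ℕ) hdN) := by
      apply Subtype.ext
      rw [coe_jF, coe_heckeAlphaBar]
      rfl
    rw [e1, swapW_alpha]
    apply Subtype.ext
    rw [coe_heckeBetaBar, coe_jF]
    show qExpand Kbar ℓ (qExpand Kbar (d : ℕ) (jqModC Kbar)) = _
    rw [qExpand_qExpand]
    exact qExpand_congr' (coe_swapDiv_of_not_dvd N ℓ hℓ d h).symm _

theorem evF_X' (M : ℕ) (d : M.divisors) : evF M (MvPolynomial.X d) = jF M d := by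
  simp [evF]

theorem evF_C' (M : ℕ) (a : Kbar) : evF M (MvPolynomial.C a) = algebraMap Kbar (FF M) a := by
  rw [← MvPolynomial.algebraMap_eq, AlgHom.commutes]

set_option synthInstance.maxHeartbeats 200000 in
/-- The formal Atkin–Lehner involution on polynomials in the `j_d`: rename the variables. -/
theorem swapW_evF (hℓ : ℓ.Prime) (hℓN : ¬ ℓ ∣ N) (C : MvPolynomial ((N * ℓ).divisors) Kbar) :
    swapW N ℓ hℓ hℓN (evF (N * ℓ) C) =
      evF (N * ℓ) (MvPolynomial.rename (swapDiv N ℓ hℓ) C) := by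
  induction C using MvPolynomial.induction_on with
  | C a =>
    rw [MvPolynomial.rename_C, evF_C']
    exact swapW_algebraMap N ℓ hℓ hℓN a
  | add p q hp hq =>
    have e1 : evF (N * ℓ) (p + q) = evF (N * ℓ) p + evF (N * ℓ) q := map_add _ p q
    have e2 : MvPolynomial.rename (swapDiv N ℓ hℓ) (p + q) =
        MvPolynomial.rename (swapDiv N ℓ hℓ) p + MvPolynomial.rename (swapDiv N ℓ hℓ) q :=
      map_add _ p q
    rw [e1, e2, (swapW N ℓ hℓ hℓN).map_add, hp, hq]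
    exact (map_add (evF (N * ℓ)) _ _).symm
  | mul_X p d hp =>
    have e1 : evF (N * ℓ) (p * MvPolynomial.X d) = evF (N * ℓ) p * jF (N * ℓ) d := by
      rw [← evF_X']
      exact map_mul _ p _
    have e2 : MvPolynomial.rename (swapDiv N ℓ hℓ) (p * MvPolynomial.X d) =
        MvPolynomial.rename (swapDiv N ℓ hℓ) p * MvPolynomial.X (swapDiv N ℓ hℓ d) := by
      rw [← MvPolynomial.rename_X]
      exact map_mul _ p _
    have e3 : evF (N * ℓ) (MvPolynomial.rename (swapDiv N ℓ hℓ) p *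
        MvPolynomial.X (swapDiv N ℓ hℓ d)) =
        evF (N * ℓ) (MvPolynomial.rename (swapDiv N ℓ hℓ) p) *
          jF (N * ℓ) (swapDiv N ℓ hℓ d) := by
      rw [← evF_X']
      exact map_mul _ _ _
    rw [e1, e2, e3, (swapW N ℓ hℓ hℓN).map_mul, hp, swapW_jF]

/-! ### The coset representatives `γ_b` -/

theorem exists_bezA (hcop : Nat.Coprime N ℓ) (b : ℕ) :
    ∃ x y : ℤ, x * ((N : ℤ) * b + ℓ) - y * N = 1 := by
  have h : IsCoprime ((ℓ : ℤ) + N * b) (N : ℤ) :=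
    (Nat.isCoprime_iff_coprime.mpr hcop.symm).add_mul_left_left b
  obtain ⟨u, v, huv⟩ := h
  exact ⟨u, -v, by linear_combination huv⟩

/-- The upper left entry of `γ_b`. -/
def gamX (hcop : Nat.Coprime N ℓ) (b : ℕ) : ℤ := (exists_bezA N ℓ hcop b).choose

/-- The upper right entry of `γ_b`. -/
def gamY (hcop : Nat.Coprime N ℓ) (b : ℕ) : ℤ := (exists_bezA N ℓ hcop b).choose_spec.choose

theorem gam_det (hcop : Nat.Coprime N ℓ) (b : ℕ) :
    gamX N ℓ hcop b * ((N : ℤ) * b + ℓ) - gamY N ℓ hcop b * N = 1 :=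
  (exists_bezA N ℓ hcop b).choose_spec.choose_spec

/-- `γ_b = [[x, y], [N, N b + ℓ]]`. -/
def gamA (hcop : Nat.Coprime N ℓ) (b : ℕ) : SL(2, ℤ) :=
  ⟨!![gamX N ℓ hcop b, gamY N ℓ hcop b; (N : ℤ), (N : ℤ) * b + ℓ], by
    rw [Matrix.det_fin_two_of]
    exact gam_det N ℓ hcop b⟩

@[simp] theorem gamA_00 (hcop : Nat.Coprime N ℓ) (b : ℕ) :
    (gamA N ℓ hcop b) 0 0 = gamX N ℓ hcop b := rfl
@[simp] theorem gamA_01 (hcop : Nat.Coprime N ℓ) (b : ℕ) :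
    (gamA N ℓ hcop b) 0 1 = gamY N ℓ hcop b := rfl
@[simp] theorem gamA_10 (hcop : Nat.Coprime N ℓ) (b : ℕ) :
    (gamA N ℓ hcop b) 1 0 = (N : ℤ) := rfl
@[simp] theorem gamA_11 (hcop : Nat.Coprime N ℓ) (b : ℕ) :
    (gamA N ℓ hcop b) 1 1 = (N : ℤ) * b + ℓ := rfl

theorem gamA_mem (hcop : Nat.Coprime N ℓ) (b : ℕ) : gamA N ℓ hcop b ∈ Gamma0 N := by
  rw [Gamma0_mem, gamA_10]
  simp

theorem Jd_congr {a b : ℕ} [NeZero a] [NeZero b] (h : a = b) (τ : ℍ) : Jd a τ = Jd b τ := by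
  subst h
  rfl

theorem coe_gamA_smul (hcop : Nat.Coprime N ℓ) (b : ℕ) (τ : ℍ) :
    ((gamA N ℓ hcop b • τ : ℍ) : ℂ) =
      ((gamX N ℓ hcop b : ℂ) * τ + (gamY N ℓ hcop b : ℂ)) / ((N : ℂ) * τ + ((N : ℂ) * b + ℓ)) := by
  rw [UpperHalfPlane.coe_specialLinearGroup_apply]
  simp

theorem linear_ne_zero_of_pos {c : ℝ} (hc : 0 < c) (d : ℂ) (hd : d.im = 0) (z : ℍ) :
    (c : ℂ) * (z : ℂ) + d ≠ 0 := by
  intro h
  have h1 := congrArg Complex.im h
  simp only [Complex.add_im, Complex.mul_im, Complex.ofReal_re, Complex.ofReal_im, zero_mul,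
    add_zero, hd, Complex.zero_im] at h1
  have h2 : 0 < c * (z : ℂ).im := mul_pos hc z.im_pos
  linarith

/-- `j(d γ_b τ) = j(ℓ d (τ + b)/ℓ)` for `d ∣ N`. -/
theorem Jd_gamA_of_dvd (hcop : Nat.Coprime N ℓ) (b : ℕ) {d : ℕ} [NeZero d] (hd : d ∣ N) (τ : ℍ) :
    Jd d (gamA N ℓ hcop b • τ) = Jd (ℓ * d) (ModularForm.heckeMatrix ℓ b • τ) := by
  have hℓ0 : ℓ ≠ 0 := NeZero.ne ℓ
  have hmem : d ∈ N.divisors := Nat.mem_divisors.mpr ⟨hd, NeZero.ne N⟩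
  have h1 := Theta_smul_of_mem N (gamA_mem N ℓ hcop b) (MvPolynomial.X ⟨d, hmem⟩) τ
  rw [Theta_X] at h1
  have h1' : Jd d (gamA N ℓ hcop b • τ) = Jd d τ := h1
  rw [h1']
  have h2 : levelMul (ℓ * d) (ModularForm.heckeMatrix ℓ b • τ) =
      ModularGroup.T ^ ((d * b : ℕ) : ℤ) • levelMul d τ := by
    apply UpperHalfPlane.ext
    rw [coe_levelMul, ModularForm.coe_heckeMatrix_smul hℓ0, ModularGroup.coe_T_zpow_smul_eq,
      coe_levelMul]
    have : (ℓ : ℂ) ≠ 0 := by exact_mod_cast hℓ0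
    push_cast
    field_simp
  show Jfun (levelMul d τ) = Jfun (levelMul (ℓ * d) (ModularForm.heckeMatrix ℓ b • τ))
  rw [h2, Jfun_smul]

/-- `j(ℓ d' γ_b τ) = j(d' (τ + b)/ℓ)` for `d' ∣ N`. -/
theorem Jd_gamA_of_mul (hcop : Nat.Coprime N ℓ) (b : ℕ) {d' : ℕ} [NeZero d'] (hd' : d' ∣ N)
    (τ : ℍ) :
    Jd (ℓ * d') (gamA N ℓ hcop b • τ) = Jd d' (ModularForm.heckeMatrix ℓ b • τ) := by
  have hℓ0 : ℓ ≠ 0 := NeZero.ne ℓ
  obtain ⟨e, he⟩ := hd'
  have he0 : e ≠ 0 := by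
    rintro rfl
    exact (NeZero.ne N) (by rw [he, mul_zero])
  have hdet := gam_det N ℓ hcop b
  set x := gamX N ℓ hcop b with hx
  set y := gamY N ℓ hcop b with hy
  let δ : SL(2, ℤ) := ⟨!![(ℓ : ℤ) * x, (d' : ℤ) * (y - b * x); (e : ℤ), 1], by
    rw [Matrix.det_fin_two_of]
    have hN : (N : ℤ) = d' * e := by exact_mod_cast he
    rw [hN] at hdet
    linear_combination hdet⟩
  have h2 : levelMul (ℓ * d') (gamA N ℓ hcop b • τ) =
      δ • levelMul d' (ModularForm.heckeMatrix ℓ b • τ) := by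
    apply UpperHalfPlane.ext
    rw [coe_levelMul, coe_gamA_smul, UpperHalfPlane.coe_specialLinearGroup_apply, coe_levelMul,
      ModularForm.coe_heckeMatrix_smul hℓ0]
    have hℓC : (ℓ : ℂ) ≠ 0 := by exact_mod_cast hℓ0
    have hNpos : (0 : ℝ) < N := by exact_mod_cast Nat.pos_of_ne_zero (NeZero.ne N)
    have hden1 : (N : ℂ) * (τ : ℂ) + ((N : ℂ) * b + ℓ) ≠ 0 := by
      have := linear_ne_zero_of_pos hNpos ((N : ℂ) * b + ℓ) (by simp) τ
      simpa using this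
    have hδ00 : δ 0 0 = (ℓ : ℤ) * x := rfl
    have hδ01 : δ 0 1 = (d' : ℤ) * (y - b * x) := rfl
    have hδ10 : δ 1 0 = (e : ℤ) := rfl
    have hδ11 : δ 1 1 = 1 := rfl
    rw [hδ00, hδ01, hδ10, hδ11]
    have hNC : (N : ℂ) = d' * e := by exact_mod_cast he
    have hden2 : (e : ℂ) * ((d' : ℂ) * (((τ : ℂ) + b) / ℓ)) + 1 ≠ 0 := by
      have h3 : (e : ℂ) * ((d' : ℂ) * (((τ : ℂ) + b) / ℓ)) + 1 =
          ((N : ℂ) * (τ : ℂ) + ((N : ℂ) * b + ℓ)) / ℓ := by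
        rw [hNC]
        field_simp
        ring
      rw [h3]
      exact div_ne_zero hden1 hℓC
    have hden2' : ((algebraMap ℤ ℝ (e : ℤ) : ℝ) : ℂ) * ((d' : ℂ) * (((τ : ℂ) + b) / ℓ)) +
        ((algebraMap ℤ ℝ 1 : ℝ) : ℂ) ≠ 0 := by
      simpa using hden2
    rw [← mul_div_assoc, div_eq_div_iff hden1 hden2']
    push_cast
    simp only [eq_intCast, Complex.ofReal_intCast]
    rw [hNC]
    field_simp
    ring
  show Jfun (levelMul (ℓ * d') (gamA N ℓ hcop b • τ)) =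
    Jfun (levelMul d' (ModularForm.heckeMatrix ℓ b • τ))
  rw [h2, Jfun_smul]

/-- **`Θ(C^w)((τ+b)/ℓ) = Θ(C)(γ_b τ)`.** -/
theorem Theta_rename_swapDiv (hℓ : ℓ.Prime) (hℓN : ¬ ℓ ∣ N) (b : ℕ)
    (C : MvPolynomial ((N * ℓ).divisors) Kbar) (τ : ℍ) :
    Theta (N * ℓ) (MvPolynomial.rename (swapDiv N ℓ hℓ) C) (ModularForm.heckeMatrix ℓ b • τ) =
      Theta (N * ℓ) C
        (gamA N ℓ ((Nat.Prime.coprime_iff_not_dvd hℓ).mpr hℓN).symm b • τ) := by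
  set hcop : Nat.Coprime N ℓ := ((Nat.Prime.coprime_iff_not_dvd hℓ).mpr hℓN).symm
  induction C using MvPolynomial.induction_on with
  | C a => rw [MvPolynomial.rename_C, Theta_C]
  | add p q hp hq =>
    have e2 : MvPolynomial.rename (swapDiv N ℓ hℓ) (p + q) =
        MvPolynomial.rename (swapDiv N ℓ hℓ) p + MvPolynomial.rename (swapDiv N ℓ hℓ) q :=
      map_add _ p q
    rw [e2, map_add, map_add, Pi.add_apply, Pi.add_apply, hp, hq]
  | mul_X p d hp =>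
    have e2 : MvPolynomial.rename (swapDiv N ℓ hℓ) (p * MvPolynomial.X d) =
        MvPolynomial.rename (swapDiv N ℓ hℓ) p * MvPolynomial.X (swapDiv N ℓ hℓ d) := by
      rw [← MvPolynomial.rename_X]
      exact map_mul _ p _
    rw [e2, map_mul, map_mul, Pi.mul_apply, Pi.mul_apply, hp, Theta_X, Theta_X]
    suffices key : Jd ((swapDiv N ℓ hℓ d : (N * ℓ).divisors) : ℕ)
        (ModularForm.heckeMatrix ℓ b • τ) = Jd (d : ℕ) (gamA N ℓ hcop b • τ) by rw [key]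
    by_cases h : ℓ ∣ (d : ℕ)
    · obtain ⟨d', hd'⟩ := h
      have hd'0 : d' ≠ 0 := by
        rintro rfl
        exact (NeZero.ne (d : ℕ)) (by rw [hd', mul_zero])
      haveI : NeZero d' := ⟨hd'0⟩
      have hd'N : d' ∣ N := by
        have := Nat.dvd_of_mem_divisors d.2
        rw [hd', mul_comm N ℓ] at this
        exact Nat.dvd_of_mul_dvd_mul_left hℓ.pos this
      have e1 : ((swapDiv N ℓ hℓ d : (N * ℓ).divisors) : ℕ) = d' := by
        rw [coe_swapDiv_of_dvd N ℓ hℓ d ⟨d', hd'⟩, hd', Nat.mul_div_cancel_left _ hℓ.pos]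
      rw [Jd_congr e1, Jd_congr hd', Jd_gamA_of_mul N ℓ hcop b hd'N]
    · have hdN : (d : ℕ) ∣ N :=
        dvd_of_dvd_mul_of_not_dvd N ℓ hℓ (Nat.dvd_of_mem_divisors d.2) h
      rw [Jd_congr (coe_swapDiv_of_not_dvd N ℓ hℓ d h), Jd_gamA_of_dvd N ℓ hcop b hdN]

/-! ### The dictionary -/

/-- **Analytic norm identity along `α`** (expansion form): if
`evF N P' / evF N Q' = N_α(evF (Nℓ) C)` then
`Θ_N(P') = Θ_N(Q') · Θ_{Nℓ}(C) · ∏_{b<ℓ} Θ_{Nℓ}(C^w)((τ + b)/ℓ)`. -/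
theorem theta_normAlpha_aux (hℓ : ℓ.Prime) (hℓN : ¬ ℓ ∣ N)
    (C : MvPolynomial ((N * ℓ).divisors) Kbar) (P' Q' : MvPolynomial (N.divisors) Kbar)
    (hQ' : evF N Q' ≠ 0) (h : evF N P' / evF N Q' = normAlpha N ℓ (evF (N * ℓ) C)) (τ : ℍ) :
    Theta N P' τ = Theta N Q' τ * (Theta (N * ℓ) C τ *
      ∏ j : Fin ℓ, Theta (N * ℓ) (MvPolynomial.rename (swapDiv N ℓ hℓ) C)
        (ModularForm.heckeMatrix ℓ j • τ)) := by
  classical
  have hℓ0 : ℓ ≠ 0 := hℓ.ne_zero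
  obtain ⟨ζ₀, -, hζ₀⟩ := exists_iota_eq_exp 1 ℓ hℓ.pos
  have hprim : IsPrimitiveRoot ζ₀ ℓ := by
    have h1 : IsPrimitiveRoot (iota (ζ₀ : Kbar)) ℓ := by
      rw [hζ₀]
      have h2 := Complex.isPrimitiveRoot_exp ℓ hℓ0
      convert h2 using 2
      push_cast
      ring
    exact IsPrimitiveRoot.coe_units_iff.mp
      (IsPrimitiveRoot.of_map_of_injective h1 iota.injective)
  have hform := qExpand_normAlpha N ℓ hℓ hℓN ζ₀ hprim (evF (N * ℓ) C)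
  rw [← h, swapW_evF] at hform
  set C' := MvPolynomial.rename (swapDiv N ℓ hℓ) C with hC'
  have hb'0 : ((evF N Q' : FF N) : LaurentSeries Kbar) ≠ 0 := fun h0 => hQ' (Subtype.ext h0)
  have e1 : ((evF N P' / evF N Q' : FF N) : LaurentSeries Kbar)
      = ((evF N P' : FF N) : LaurentSeries Kbar) / ((evF N Q' : FF N) : LaurentSeries Kbar) := rfl
  have hcross : qExpand Kbar ℓ ((evF N P' : FF N) : LaurentSeries Kbar) =
      qExpand Kbar ℓ ((evF N Q' : FF N) : LaurentSeries Kbar) *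
        (qExpand Kbar ℓ ((evF (N * ℓ) C : FF (N * ℓ)) : LaurentSeries Kbar) *
          ∏ k ∈ Finset.range ℓ,
            scaleHom (ζ₀ ^ k) ((evF (N * ℓ) C' : FF (N * ℓ)) : LaurentSeries Kbar)) := by
    have h1 : qExpand Kbar ℓ ((evF N Q' : FF N) : LaurentSeries Kbar) ≠ 0 :=
      (map_ne_zero _).mpr hb'0
    have h2 : qExpand Kbar ℓ ((evF N P' : FF N) : LaurentSeries Kbar) /
        qExpand Kbar ℓ ((evF N Q' : FF N) : LaurentSeries Kbar) =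
        qExpand Kbar ℓ ((evF (N * ℓ) C : FF (N * ℓ)) : LaurentSeries Kbar) *
          ∏ k ∈ Finset.range ℓ,
            scaleHom (ζ₀ ^ k) ((evF (N * ℓ) C' : FF (N * ℓ)) : LaurentSeries Kbar) := by
      rw [← map_div₀, ← e1]
      simp only [← qScale_eq_scaleHom]
      exact hform
    rw [div_eq_iff h1] at h2
    rw [h2]
    ring
  have hu := eventually_qN_ne_zero ℓ
  have hL := hasExp_Theta_id N ℓ P'
  have hR : HasExp atImInfty (qN ℓ)
      (Theta N Q' * (Theta (N * ℓ) C * fun τ => ∏ j ∈ (Finset.univ : Finset (Fin ℓ)),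
        Theta (N * ℓ) C' (ModularForm.heckeMatrix ℓ j • τ)))
      (coeffMap iota (qExpand Kbar ℓ ((evF N Q' : FF N) : LaurentSeries Kbar) *
        (qExpand Kbar ℓ ((evF (N * ℓ) C : FF (N * ℓ)) : LaurentSeries Kbar) *
          ∏ k ∈ Finset.range ℓ,
            scaleHom (ζ₀ ^ k) ((evF (N * ℓ) C' : FF (N * ℓ)) : LaurentSeries Kbar)))) := by
    have h1 := hasExp_Theta_id N ℓ Q'
    have h2 := hasExp_Theta_id (N * ℓ) ℓ C
    have h3 := hasExp_finset_prod hu (Finset.univ : Finset (Fin ℓ))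
      (fun j τ => Theta (N * ℓ) C' (ModularForm.heckeMatrix ℓ j • τ))
      (fun j => coeffMap iota (scaleHom (ζ₀ ^ (j : ℕ))
        ((evF (N * ℓ) C' : FF (N * ℓ)) : LaurentSeries Kbar)))
      (fun j _ => hasExp_Theta_heckeMatrix (N * ℓ) ℓ ζ₀ hζ₀ j C')
    have h4 := HasExp.mul hu h1 (HasExp.mul hu h2 h3)
    rw [map_mul, map_mul, map_prod, ← Fin.prod_univ_eq_prod_range (fun k =>
      coeffMap iota (scaleHom (ζ₀ ^ k) ((evF (N * ℓ) C' : FF (N * ℓ)) : LaurentSeries Kbar)))]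
    exact h4
  rw [← hcross] at hR
  have hMR : MDiff (Theta N Q' * (Theta (N * ℓ) C * fun τ =>
      ∏ j ∈ (Finset.univ : Finset (Fin ℓ)),
        Theta (N * ℓ) C' (ModularForm.heckeMatrix ℓ j • τ))) := by
    refine (mdiff_Theta N Q').mul (MDifferentiable.mul (mdiff_Theta (N * ℓ) C) ?_)
    exact mdiff_finset_prod _ _ fun j _ => (mdiff_Theta (N * ℓ) C').comp
      (mdifferentiable_smul (ModularForm.det_heckeMatrix_pos ℓ j))
  have hEq := eq_of_eventuallyEq_atImInfty (mdiff_Theta N P') hMR (eventuallyEq_of_hasExp hL hR)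
  exact congrFun hEq τ

/-- **Analytic norm identity along `α`**: if `evF N P' / evF N Q' = N_α(evF (Nℓ) C)` then
`Θ_N(P')(τ) = Θ_N(Q')(τ) · Θ_{Nℓ}(C)(τ) · ∏_{b<ℓ} Θ_{Nℓ}(C)(γ_b τ)`. -/
theorem theta_normAlpha (hℓ : ℓ.Prime) (hℓN : ¬ ℓ ∣ N)
    (C : MvPolynomial ((N * ℓ).divisors) Kbar) (P' Q' : MvPolynomial (N.divisors) Kbar)
    (hQ' : evF N Q' ≠ 0) (h : evF N P' / evF N Q' = normAlpha N ℓ (evF (N * ℓ) C)) (τ : ℍ) :
    Theta N P' τ = Theta N Q' τ * (Theta (N * ℓ) C τ *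
      ∏ j : Fin ℓ, Theta (N * ℓ) C
        (gamA N ℓ ((Nat.Prime.coprime_iff_not_dvd hℓ).mpr hℓN).symm j • τ)) := by
  rw [theta_normAlpha_aux N ℓ hℓ hℓN C P' Q' hQ' h τ]
  congr 2
  exact Finset.prod_congr rfl fun j _ => Theta_rename_swapDiv N ℓ hℓ hℓN j C τ

end Fermat.Agent.S35.H28
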