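/-
S35 (ALG-PUSH), abstract part (helper28).

The product of a function with a multiplier over a left transversal has the transferred
multiplier.  `G` acts on `X`, `H ≤ G` has finite index, `W : X → M` satisfies
`W (h • x) = ρ (ϕ h) * W x` for `h ∈ H`; then for every left transversal `T` of `H`

  `transProd T W x = ∏_{t ∈ T} W (t⁻¹ • x)`   satisfies
  `transProd T W (g • x) = ρ (ϕ.transfer g) * transProd T W x`   for all `g ∈ G`,

where `ϕ.transfer : G →* A` is Mathlib's transfer homomorphism.
-/
import Mathlib

set_option autoImplicit false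
set_option linter.style.haveILetI false

open Subgroup Subgroup.leftTransversals MulAction
open scoped Pointwise

noncomputable section

namespace Fermat.Agent.S35.H28

section Abstract

variable {G : Type*} [Group G] {H : Subgroup G} [H.FiniteIndex] {A : Type*} [CommGroup A]
  {X : Type*} [MulAction G X] {M : Type*} [CommMonoid M]

/-- The product of `W ∘ t⁻¹` over a left transversal `T` of `H` (indexed by `G ⧸ H`). -/
def transProd (T : H.LeftTransversal) (W : X → M) (x : X) : M :=
  letI := H.fintypeQuotientOfFiniteIndex
  ∏ q : G ⧸ H, W ((T.2.leftQuotientEquiv q : G)⁻¹ • x)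

theorem transProd_def (T : H.LeftTransversal) (W : X → M) (x : X) :
    transProd T W x = (letI := H.fintypeQuotientOfFiniteIndex;
      ∏ q : G ⧸ H, W ((T.2.leftQuotientEquiv q : G)⁻¹ • x)) := rfl

/-- Change of transversal. -/
theorem transProd_eq_diff_mul (ϕ : H →* A) (ρ : A →* M) (W : X → M)
    (hW : ∀ (h : H) (x : X), W ((h : G) • x) = ρ (ϕ h) * W x) (S T : H.LeftTransversal) (x : X) :
    transProd S W x = ρ (diff ϕ S T) * transProd T W x := by
  letI := H.fintypeQuotientOfFiniteIndex
  rw [transProd_def, transProd_def, diff, map_prod, ← Finset.prod_mul_distrib]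
  refine Finset.prod_congr rfl fun q _ => ?_
  rw [← hW]
  congr 1
  show _ = ((S.2.leftQuotientEquiv q : G)⁻¹ * (T.2.leftQuotientEquiv q : G)) •
    ((T.2.leftQuotientEquiv q : G)⁻¹ • x)
  rw [smul_smul, mul_assoc, mul_inv_cancel, mul_one]

/-- Translating the argument is translating the transversal. -/
theorem transProd_smul (T : H.LeftTransversal) (W : X → M) (g : G) (x : X) :
    transProd T W (g • x) = transProd (g⁻¹ • T) W x := by
  letI := H.fintypeQuotientOfFiniteIndex
  rw [transProd_def, transProd_def]
  refine Fintype.prod_equiv (MulAction.toPerm g⁻¹) _ _ fun q => ?_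
  rw [smul_apply_eq_smul_apply_inv_smul, inv_inv, MulAction.toPerm_apply, smul_inv_smul,
    smul_eq_mul, mul_inv_rev, inv_inv, mul_smul]

/-- **The transversal product has the transferred multiplier.** -/
theorem transProd_smul_eq (ϕ : H →* A) (ρ : A →* M) (W : X → M)
    (hW : ∀ (h : H) (x : X), W ((h : G) • x) = ρ (ϕ h) * W x) (T : H.LeftTransversal) (g : G)
    (x : X) : transProd T W (g • x) = ρ (ϕ.transfer g) * transProd T W x := by
  rw [transProd_smul, transProd_eq_diff_mul ϕ ρ W hW (g⁻¹ • T) T, MonoidHom.transfer_def ϕ T g,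
    ← smul_diff_smul ϕ (g⁻¹ • T) T g, smul_inv_smul]

/-- The transversal product of a pointwise power. -/
theorem transProd_pow (T : H.LeftTransversal) (W : X → M) (n : ℕ) (x : X) :
    transProd T (fun y => W y ^ n) x = transProd T W x ^ n := by
  letI := H.fintypeQuotientOfFiniteIndex
  rw [transProd_def, transProd_def, Finset.prod_pow]

/-- The transversal product over an explicitly parametrised transversal. -/
theorem transProd_eq_prod {ι : Type*} [Fintype ι] (T : H.LeftTransversal) (f : ι → G)
    (hf : Function.Injective f) (hT : (T : Set G) = Set.range f) (W : X → M) (x : X) :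
    transProd T W x = ∏ i : ι, W ((f i)⁻¹ • x) := by
  letI := H.fintypeQuotientOfFiniteIndex
  have hmem : ∀ i, f i ∈ (T : Set G) := fun i => by rw [hT]; exact ⟨i, rfl⟩
  let e : ι ≃ (T : Set G) := Equiv.ofBijective (fun i => ⟨f i, hmem i⟩)
    ⟨fun i j h => hf (Subtype.ext_iff.mp h), fun t => by
      obtain ⟨i, hi⟩ : (t : G) ∈ Set.range f := hT ▸ t.2
      exact ⟨i, Subtype.ext hi⟩⟩
  rw [transProd_def]
  refine Fintype.prod_equiv (T.2.leftQuotientEquiv.trans e.symm) _ _ fun q => ?_
  have : f (e.symm (T.2.leftQuotientEquiv q)) = (T.2.leftQuotientEquiv q : G) :=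
    congrArg Subtype.val (e.apply_symm_apply (T.2.leftQuotientEquiv q))
  rw [Equiv.trans_apply, this]

end Abstract

/-! ### Transfer: functoriality in the coefficient group -/

section Functorial

variable {G : Type*} [Group G] {H : Subgroup G} [H.FiniteIndex] {A B : Type*} [CommGroup A]
  [CommGroup B]

theorem transfer_comp (f : A →* B) (ϕ : H →* A) : (f.comp ϕ).transfer = f.comp ϕ.transfer := by
  ext g
  letI := H.fintypeQuotientOfFiniteIndex
  rw [MonoidHom.comp_apply, MonoidHom.transfer_def _ default, MonoidHom.transfer_def _ default,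
    diff, diff, map_prod]
  rfl

theorem transfer_mul (ϕ ϕ' : H →* A) : (ϕ * ϕ').transfer = ϕ.transfer * ϕ'.transfer := by
  ext g
  letI := H.fintypeQuotientOfFiniteIndex
  rw [MonoidHom.mul_apply, MonoidHom.transfer_def _ default, MonoidHom.transfer_def _ default,
    MonoidHom.transfer_def _ default, diff, diff, diff, ← Finset.prod_mul_distrib]
  rfl

theorem transfer_one : (1 : H →* A).transfer = 1 := by
  ext g
  letI := H.fintypeQuotientOfFiniteIndex
  rw [MonoidHom.transfer_def _ default, diff]
  simp

end Functorial

end Fermat.Agent.S35.H28
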