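/-
S35 (ALG-PUSH), the transfer `Hom(Γ₀(Nℓ), A) → Hom(Γ₀(N), A)` and the coset representatives
of `Γ₀(Nℓ) \ Γ₀(N)` (helper28).

* `trAlpha N ℓ A` : the transfer (corestriction), Mathlib's `MonoidHom.transfer` for
  `HA N ℓ = Γ₀(Nℓ) ≤ Γ₀(N)`; additive in `ψ`, natural in `A`, preserves parabolic homomorphisms.
* `prodA_smul` : if `W` has multiplier `e ∘ ψ` on `Γ₀(Nℓ)` then
  `prodA W τ = W τ · ∏_{b<ℓ} W (γ_b τ)` has multiplier `e ∘ trAlpha ψ` on `Γ₀(N)`.
-/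
import Mathlib
import Fermat.Agent.S35.H28.Transfer
import Fermat.Agent.S35.H28.ThetaPush
import Fermat.Prelude.Def_ModularCurve_PeriodMap

set_option autoImplicit false
set_option linter.style.haveILetI false
set_option linter.unusedSectionVars false

open UpperHalfPlane ModularCurve CongruenceSubgroup ModularCurve.Period
open scoped MatrixGroups

noncomputable section

namespace Fermat.Agent.S35.H28

/-! ### Generic: transfer of a homomorphism vanishing on a conjugation- and power-stable set -/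

section Generic

variable {G : Type*} [Group G] {H : Subgroup G} [H.FiniteIndex] {A : Type*} [CommGroup A]

theorem transfer_eq_one_of_forall (ϕ : H →* A) (g : G)
    (h : ∀ (c : G) (k : ℕ) (hk : c⁻¹ * g ^ k * c ∈ H), ϕ ⟨c⁻¹ * g ^ k * c, hk⟩ = 1) :
    ϕ.transfer g = 1 := by
  classical
  letI : Fintype (Quotient (MulAction.orbitRel (Subgroup.zpowers g) (G ⧸ H))) :=
    Fintype.ofFinite _
  rw [MonoidHom.transfer_eq_prod_quotient_orbitRel_zpowers_quot]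
  exact Finset.prod_eq_one fun q _ => h _ _ _

/-- A parametrised family with exactly one member in each left coset is a left transversal. -/
theorem isComplement_range_of_existsUnique {ι : Type*} (f : ι → G)
    (h : ∀ g : G, ∃! i, (f i)⁻¹ * g ∈ H) :
    Subgroup.IsComplement (Set.range f) (H : Set G) := by
  rw [Subgroup.isComplement_iff_existsUnique_inv_mul_mem]
  intro g
  obtain ⟨i, hi, hu⟩ := h g
  refine ⟨⟨f i, i, rfl⟩, hi, ?_⟩
  rintro ⟨_, j, rfl⟩ hj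
  have := hu j hj
  subst this
  rfl

theorem injective_of_existsUnique {ι : Type*} (f : ι → G)
    (h : ∀ g : G, ∃! i, (f i)⁻¹ * g ∈ H) : Function.Injective f := by
  intro i j hij
  obtain ⟨k, -, hu⟩ := h (f i)
  have h1 := hu i (by show (f i)⁻¹ * f i ∈ H; rw [inv_mul_cancel]; exact H.one_mem)
  have h2 := hu j (by show (f j)⁻¹ * f i ∈ H; rw [← hij, inv_mul_cancel]; exact H.one_mem)
  rw [h1, h2]

end Generic

/-! ### Parabolic elements of `SL(2, ℤ)` -/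

/-- The parabolic condition `tr² = 4` is stable under powers. -/
theorem trace_sq_pow (g : SL(2, ℤ)) (hg : (g : Matrix (Fin 2) (Fin 2) ℤ).trace ^ 2 = 4) (k : ℕ) :
    ((g ^ k : SL(2, ℤ)) : Matrix (Fin 2) (Fin 2) ℤ).trace ^ 2 = 4 := by
  -- `t = ±2`, `(g - ε)² = 0`, `g^k = ε^k + k ε^(k-1) (g - ε)`
  have hdet : (g : Matrix (Fin 2) (Fin 2) ℤ) 0 0 * (g : Matrix (Fin 2) (Fin 2) ℤ) 1 1 -
      (g : Matrix (Fin 2) (Fin 2) ℤ) 0 1 * (g : Matrix (Fin 2) (Fin 2) ℤ) 1 0 = 1 := by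
    have := g.2
    rwa [Matrix.det_fin_two] at this
  rw [Matrix.trace_fin_two] at hg
  set a := (g : Matrix (Fin 2) (Fin 2) ℤ) 0 0 with ha
  set b := (g : Matrix (Fin 2) (Fin 2) ℤ) 0 1 with hb
  set c := (g : Matrix (Fin 2) (Fin 2) ℤ) 1 0 with hc
  set d := (g : Matrix (Fin 2) (Fin 2) ℤ) 1 1 with hd
  obtain ⟨ε, hε, hε2⟩ : ∃ ε : ℤ, a + d = 2 * ε ∧ ε ^ 2 = 1 := by
    have h1 : (a + d - 2) * (a + d + 2) = 0 := by linear_combination hg
    rcases mul_eq_zero.mp h1 with h2 | h2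
    · exact ⟨1, by linarith, by norm_num⟩
    · exact ⟨-1, by linarith, by norm_num⟩
  have key : ∀ k : ℕ, ∃ u v : ℤ, u ^ 2 = 1 ∧
      ((g ^ k : SL(2, ℤ)) : Matrix (Fin 2) (Fin 2) ℤ) =
        !![u + v * (a - ε), v * b; v * c, u + v * (d - ε)] := by
    intro k
    induction k with
    | zero =>
      refine ⟨1, 0, by norm_num, ?_⟩
      rw [pow_zero]
      ext i j
      fin_cases i <;> fin_cases j <;> simp
    | succ k ih =>
      obtain ⟨u, v, hu, huv⟩ := ih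
      refine ⟨u * ε, u + v * ε, by rw [mul_pow, hu, hε2, one_mul], ?_⟩
      rw [pow_succ, Matrix.SpecialLinearGroup.coe_mul, huv]
      have hg' : (g : Matrix (Fin 2) (Fin 2) ℤ) = !![a, b; c, d] := by
        ext i j
        fin_cases i <;> fin_cases j <;> rfl
      rw [hg', Matrix.mul_fin_two]
      have hd' : d = 2 * ε - a := by linarith
      have hbc : b * c = a * d - 1 := by linarith
      ext i j
      fin_cases i <;> fin_cases j
      · show (u + v * (a - ε)) * a + v * b * c = u * ε + (u + v * ε) * (a - ε)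
        rw [mul_assoc v b c, hbc, hd']
        linear_combination v * hε2
      · show (u + v * (a - ε)) * b + v * b * d = (u + v * ε) * b
        rw [hd']
        ring
      · show v * c * a + (u + v * (d - ε)) * c = (u + v * ε) * c
        rw [hd']
        ring
      · show v * c * b + (u + v * (d - ε)) * d = u * ε + (u + v * ε) * (d - ε)
        have : v * c * b = v * (b * c) := by ring
        rw [this, hbc, hd']
        linear_combination v * hε2
  obtain ⟨u, v, hu, huv⟩ := key k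
  rw [huv, Matrix.trace_fin_two_of]
  have : u + v * (a - ε) + (u + v * (d - ε)) = 2 * u := by
    have hd' : d = 2 * ε - a := by linarith
    rw [hd']
    ring
  rw [this, mul_pow, hu]
  norm_num

/-- The parabolic condition `tr² = 4` is stable under conjugation. -/
theorem trace_sq_conj (c g : SL(2, ℤ)) (hg : (g : Matrix (Fin 2) (Fin 2) ℤ).trace ^ 2 = 4) :
    ((c⁻¹ * g * c : SL(2, ℤ)) : Matrix (Fin 2) (Fin 2) ℤ).trace ^ 2 = 4 := by
  have h : ((c⁻¹ * g * c : SL(2, ℤ)) : Matrix (Fin 2) (Fin 2) ℤ).trace =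
      (g : Matrix (Fin 2) (Fin 2) ℤ).trace := by
    rw [Matrix.SpecialLinearGroup.coe_mul, Matrix.trace_mul_comm, ← Matrix.SpecialLinearGroup.coe_mul,
      ← mul_assoc, mul_inv_cancel, one_mul]
  rw [h, hg]

/-! ### `Γ₀(Nℓ) ≤ Γ₀(N)` and the transfer -/

variable (N ℓ : ℕ) [NeZero N] [NeZero ℓ]

theorem mem_Gamma0_iff_dvd (M : ℕ) (g : SL(2, ℤ)) : g ∈ Gamma0 M ↔ (M : ℤ) ∣ g 1 0 := by
  rw [Gamma0_mem, ZMod.intCast_zmod_eq_zero_iff_dvd]

theorem Gamma0_mul_le : Gamma0 (N * ℓ) ≤ Gamma0 N := by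
  intro g hg
  rw [mem_Gamma0_iff_dvd] at hg ⊢
  exact dvd_trans ⟨(ℓ : ℤ), by push_cast; ring⟩ hg

/-- `Γ₀(Nℓ)` as a subgroup of `Γ₀(N)`. -/
def HA : Subgroup (Gamma0 N) := (Gamma0 (N * ℓ)).subgroupOf (Gamma0 N)

instance instFiniteIndexHA : (HA N ℓ).FiniteIndex := by
  unfold HA
  infer_instance

theorem mem_HA (g : Gamma0 N) : g ∈ HA N ℓ ↔ ((N * ℓ : ℕ) : ℤ) ∣ (g : SL(2, ℤ)) 1 0 := by
  rw [HA, Subgroup.mem_subgroupOf, mem_Gamma0_iff_dvd]

/-- An element of `HA` as an element of `Γ₀(Nℓ)`. -/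
def toGamma0Mul (h : HA N ℓ) : Gamma0 (N * ℓ) :=
  ⟨((h : Gamma0 N) : SL(2, ℤ)), Subgroup.mem_subgroupOf.mp h.2⟩

variable (A : Type*) [AddCommGroup A]

/-- `ψ` restricted to `HA`, multiplicatively. -/
def phiA (ψ : Additive (Gamma0 (N * ℓ)) →+ A) : HA N ℓ →* Multiplicative A where
  toFun h := Multiplicative.ofAdd (ψ (Additive.ofMul (toGamma0Mul N ℓ h)))
  map_one' := by
    have : toGamma0Mul N ℓ 1 = 1 := rfl
    rw [this]
    exact congrArg Multiplicative.ofAdd (map_zero ψ)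
  map_mul' h h' := by
    have : toGamma0Mul N ℓ (h * h') = toGamma0Mul N ℓ h * toGamma0Mul N ℓ h' := rfl
    rw [this, ofMul_mul, map_add]
    rfl

theorem phiA_apply (ψ : Additive (Gamma0 (N * ℓ)) →+ A) (h : HA N ℓ) :
    phiA N ℓ A ψ h = Multiplicative.ofAdd (ψ (Additive.ofMul (toGamma0Mul N ℓ h))) := rfl

/-- **The transfer** `Hom(Γ₀(Nℓ), A) → Hom(Γ₀(N), A)` (corestriction along `Γ₀(Nℓ) ≤ Γ₀(N)`). -/
def trAlpha : (Additive (Gamma0 (N * ℓ)) →+ A) →+ (Additive (Gamma0 N) →+ A) where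
  toFun ψ := MonoidHom.toAdditiveLeft (phiA N ℓ A ψ).transfer
  map_zero' := by
    have : phiA N ℓ A 0 = 1 := by
      ext h
      rfl
    rw [this, transfer_one]
    rfl
  map_add' ψ ψ' := by
    have : phiA N ℓ A (ψ + ψ') = phiA N ℓ A ψ * phiA N ℓ A ψ' := by
      ext h
      rfl
    rw [this, transfer_mul]
    rfl

theorem trAlpha_apply (ψ : Additive (Gamma0 (N * ℓ)) →+ A) (γ : Gamma0 N) :
    trAlpha N ℓ A ψ (Additive.ofMul γ) = Multiplicative.toAdd ((phiA N ℓ A ψ).transfer γ) := rfl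

/-- Naturality of the transfer in the coefficient group. -/
theorem trAlpha_comp {A B : Type*} [AddCommGroup A] [AddCommGroup B] (f : A →+ B)
    (ψ : Additive (Gamma0 (N * ℓ)) →+ A) :
    trAlpha N ℓ B (f.comp ψ) = f.comp (trAlpha N ℓ A ψ) := by
  have h : phiA N ℓ B (f.comp ψ) = (AddMonoidHom.toMultiplicative f).comp (phiA N ℓ A ψ) := by
    ext h
    rfl
  refine AddMonoidHom.ext fun γ => ?_
  obtain ⟨γ, rfl⟩ := Additive.ofMul.surjective γ
  rw [trAlpha_apply, AddMonoidHom.comp_apply, trAlpha_apply, h, transfer_comp]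
  rfl

/-- The transfer of a parabolic homomorphism is parabolic. -/
theorem isParabolicHom_trAlpha (ψ : Additive (Gamma0 (N * ℓ)) →+ A)
    (hψ : IsParabolicHom (Gamma0 (N * ℓ)) ψ) : IsParabolicHom (Gamma0 N) (trAlpha N ℓ A ψ) := by
  intro γ hγ
  rw [trAlpha_apply]
  have key : (phiA N ℓ A ψ).transfer γ = 1 := by
    refine transfer_eq_one_of_forall _ γ fun c k hk => ?_
    rw [phiA_apply]
    refine congrArg Multiplicative.ofAdd (hψ _ ?_)
    show (((c⁻¹ * γ ^ k * c : Gamma0 N) : SL(2, ℤ)) : Matrix (Fin 2) (Fin 2) ℤ).trace ^ 2 = 4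
    have h1 : ((c⁻¹ * γ ^ k * c : Gamma0 N) : SL(2, ℤ)) =
        (c : SL(2, ℤ))⁻¹ * (γ : SL(2, ℤ)) ^ k * (c : SL(2, ℤ)) := rfl
    rw [h1]
    exact trace_sq_conj _ _ (trace_sq_pow _ hγ k)
  rw [key]
  rfl

/-! ### The coset representatives -/

variable {N ℓ}

/-- The representatives `1, γ_0⁻¹, …, γ_{ℓ-1}⁻¹` of `Γ₀(N) / Γ₀(Nℓ)`. -/
def repA (hcop : Nat.Coprime N ℓ) : Option (Fin ℓ) → Gamma0 N
  | none => 1
  | some b => (⟨gamA N ℓ hcop b, gamA_mem N ℓ hcop b⟩ : Gamma0 N)⁻¹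

theorem repA_existsUnique (hℓ : ℓ.Prime) (hcop : Nat.Coprime N ℓ) (g : Gamma0 N) :
    ∃! i, (repA hcop i)⁻¹ * g ∈ HA N ℓ := by
  haveI : Fact ℓ.Prime := ⟨hℓ⟩
  have hdet : (g : SL(2, ℤ)) 0 0 * (g : SL(2, ℤ)) 1 1 - (g : SL(2, ℤ)) 0 1 * (g : SL(2, ℤ)) 1 0
      = 1 := by
    have := (g : SL(2, ℤ)).2
    rwa [Matrix.det_fin_two] at this
  have hNc : (N : ℤ) ∣ (g : SL(2, ℤ)) 1 0 := (mem_Gamma0_iff_dvd N _).mp g.2
  set a := (g : SL(2, ℤ)) 0 0 with ha
  set c := (g : SL(2, ℤ)) 1 0 with hc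
  have hcopZ : IsCoprime (N : ℤ) (ℓ : ℤ) := Nat.isCoprime_iff_coprime.mpr hcop
  have hℓZ : Prime (ℓ : ℤ) := Nat.prime_iff_prime_int.mp hℓ
  -- membership criteria
  have hnone : (repA hcop none)⁻¹ * g ∈ HA N ℓ ↔ (ℓ : ℤ) ∣ c := by
    have e : (repA hcop none)⁻¹ * g = g := by
      show (1 : Gamma0 N)⁻¹ * g = g
      rw [inv_one, one_mul]
    rw [e, mem_HA]
    constructor
    · intro h
      exact dvd_trans ⟨(N : ℤ), by push_cast; ring⟩ h
    · intro h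
      have := hcopZ.mul_dvd hNc h
      exact_mod_cast this
  have hsome : ∀ b : Fin ℓ, (repA hcop (some b))⁻¹ * g ∈ HA N ℓ ↔ (ℓ : ℤ) ∣ a + b * c := by
    intro b
    have e : (((repA hcop (some b))⁻¹ * g : Gamma0 N) : SL(2, ℤ)) 1 0 =
        (N : ℤ) * a + ((N : ℤ) * b + ℓ) * c := by
      have e1 : (((repA hcop (some b))⁻¹ * g : Gamma0 N) : SL(2, ℤ)) =
          gamA N ℓ hcop b * (g : SL(2, ℤ)) := by
        show (((⟨gamA N ℓ hcop b, gamA_mem N ℓ hcop b⟩ : Gamma0 N)⁻¹)⁻¹ * g : Gamma0 N).1 = _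
        rw [inv_inv]
        rfl
      rw [e1, Matrix.SpecialLinearGroup.coe_mul, Matrix.mul_apply, Fin.sum_univ_two]
      rfl
    rw [mem_HA, e]
    have e2 : (N : ℤ) * a + ((N : ℤ) * b + ℓ) * c = (N : ℤ) * (a + b * c) + ℓ * c := by ring
    rw [e2]
    constructor
    · intro h
      have h1 : (ℓ : ℤ) ∣ (N : ℤ) * (a + b * c) + ℓ * c :=
        dvd_trans ⟨(N : ℤ), by push_cast; ring⟩ h
      have h2 : (ℓ : ℤ) ∣ (N : ℤ) * (a + b * c) := (dvd_add_left (dvd_mul_right _ _)).mp h1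
      exact hcopZ.symm.dvd_of_dvd_mul_left h2
    · intro h
      have h1 : (N : ℤ) ∣ (N : ℤ) * (a + b * c) + ℓ * c :=
        dvd_add (dvd_mul_right _ _) (dvd_mul_of_dvd_right hNc _)
      have h2 : (ℓ : ℤ) ∣ (N : ℤ) * (a + b * c) + ℓ * c :=
        dvd_add (dvd_mul_of_dvd_right h _) (dvd_mul_right _ _)
      have := hcopZ.mul_dvd h1 h2
      exact_mod_cast this
  by_cases hℓc : (ℓ : ℤ) ∣ c
  · refine ⟨none, hnone.mpr hℓc, ?_⟩
    rintro (_ | b) hb
    · rfl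
    · exfalso
      have h1 := (hsome b).mp hb
      have h2 : (ℓ : ℤ) ∣ a := by
        have h3 : (ℓ : ℤ) ∣ (b : ℤ) * c := dvd_mul_of_dvd_right hℓc _
        exact (dvd_add_left h3).mp h1
      have h4 : (ℓ : ℤ) ∣ 1 := by
        rw [← hdet]
        exact dvd_sub (dvd_mul_of_dvd_left h2 _) (dvd_mul_of_dvd_right hℓc _)
      exact hℓZ.not_dvd_one h4
  · have hc0 : ((c : ℤ) : ZMod ℓ) ≠ 0 := by
      rwa [Ne, ZMod.intCast_zmod_eq_zero_iff_dvd]
    set b0 : ZMod ℓ := -(a : ZMod ℓ) * ((c : ℤ) : ZMod ℓ)⁻¹ with hb0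
    have hcrit : ∀ b : Fin ℓ, (ℓ : ℤ) ∣ a + b * c ↔ ((b : ℕ) : ZMod ℓ) = b0 := by
      intro b
      rw [← ZMod.intCast_zmod_eq_zero_iff_dvd]
      push_cast
      constructor
      · intro h
        rw [hb0]
        field_simp
        linear_combination h
      · intro h
        rw [h, hb0]
        field_simp
        ring
    refine ⟨some ⟨b0.val, ZMod.val_lt b0⟩, (hsome _).mpr ((hcrit _).mpr ?_), ?_⟩
    · exact ZMod.natCast_zmod_val b0
    · rintro (_ | b) hb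
      · exact absurd (hnone.mp hb) hℓc
      · have h1 := (hcrit b).mp ((hsome b).mp hb)
        congr 1
        apply Fin.ext
        show (b : ℕ) = b0.val
        rw [← h1, ZMod.val_natCast_of_lt b.2]

theorem isComplement_repA (hℓ : ℓ.Prime) (hcop : Nat.Coprime N ℓ) :
    Subgroup.IsComplement (Set.range (repA hcop)) (HA N ℓ : Set (Gamma0 N)) :=
  isComplement_range_of_existsUnique _ (repA_existsUnique hℓ hcop)

theorem repA_injective (hℓ : ℓ.Prime) (hcop : Nat.Coprime N ℓ) :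
    Function.Injective (repA (N := N) (ℓ := ℓ) hcop) :=
  injective_of_existsUnique (H := HA N ℓ) _ (repA_existsUnique hℓ hcop)

/-- The left transversal `{1, γ_b⁻¹}` of `Γ₀(Nℓ)` in `Γ₀(N)`. -/
def transA (hℓ : ℓ.Prime) (hcop : Nat.Coprime N ℓ) : (HA N ℓ).LeftTransversal :=
  ⟨Set.range (repA hcop), isComplement_repA hℓ hcop⟩

/-- `W τ · ∏_{b<ℓ} W (γ_b τ)`. -/
def prodA (hcop : Nat.Coprime N ℓ) (W : ℍ → ℂ) (τ : ℍ) : ℂ :=
  W τ * ∏ b : Fin ℓ, W (gamA N ℓ hcop b • τ)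

theorem transProd_transA (hℓ : ℓ.Prime) (hcop : Nat.Coprime N ℓ) (W : ℍ → ℂ) (τ : ℍ) :
    transProd (transA hℓ hcop) W τ = prodA hcop W τ := by
  rw [transProd_eq_prod (transA hℓ hcop) (repA hcop) (repA_injective hℓ hcop) rfl,
    Fintype.prod_option, prodA]
  congr 1
  · show W ((1 : Gamma0 N)⁻¹ • τ) = W τ
    rw [inv_one, one_smul]
  · refine Finset.prod_congr rfl fun b _ => ?_
    show W (((⟨gamA N ℓ hcop b, gamA_mem N ℓ hcop b⟩ : Gamma0 N)⁻¹)⁻¹ • τ) = _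
    rw [inv_inv]
    rfl

/-- **Multiplier of the coset product**: if `W` has multiplier `e ∘ ψ` on `Γ₀(Nℓ)`, then
`prodA W` has multiplier `e ∘ trAlpha ψ` on `Γ₀(N)`. -/
theorem prodA_smul (hℓ : ℓ.Prime) (hcop : Nat.Coprime N ℓ) {A : Type*} [AddCommGroup A]
    (e : AddChar A ℂ) (ψ : Additive (Gamma0 (N * ℓ)) →+ A) {W : ℍ → ℂ}
    (hW : ∀ (γ : Gamma0 (N * ℓ)) (τ : ℍ),
      W ((γ : SL(2, ℤ)) • τ) = e (ψ (Additive.ofMul γ)) * W τ)
    (γ : Gamma0 N) (τ : ℍ) :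
    prodA hcop W ((γ : SL(2, ℤ)) • τ) =
      e (trAlpha N ℓ A ψ (Additive.ofMul γ)) * prodA hcop W τ := by
  have h := transProd_smul_eq (phiA N ℓ A ψ) e.toMonoidHom W
    (fun h x => hW (toGamma0Mul N ℓ h) x) (transA hℓ hcop) γ τ
  rw [transProd_transA, transProd_transA] at h
  exact h

theorem prodA_pow (hcop : Nat.Coprime N ℓ) (W : ℍ → ℂ) (n : ℕ) (τ : ℍ) :
    prodA hcop (fun z => W z ^ n) τ = prodA hcop W τ ^ n := by
  rw [prodA, prodA, mul_pow, Finset.prod_pow]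

end Fermat.Agent.S35.H28
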