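/-
S35-GEO, leaf L6(b), the transversality clause of `H27.Crossing` on the concrete model
(helper28): the transfer from the unramified base to the base of the model.

* `CrossFibE` : the E-level clause, in the binder block of `S34.H77.RegularCrossLeaf`: over the
  inertia field `E` of `A` in a normal number field `K₀`, at every maximal ideal `y` of the
  chart `chart (A ∩ E) (α x₀)` on both components, every `r ∈ y` is, up to an element outside
  `y`, the sum of an element of the first and an element of the second component;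
* `crossFib_stdV_of_E` : `CrossFibE` gives the same clause at every closed point `x ∋ ϖ` on both
  components of the finite chart of `S34.H30.stdV` (over `A ∩ K₀`, ramified): the last field of
  `H27.Crossing`.  Proof: `x₀ := x.comap chartIncl` is a closed point on both components
  (`H92.crossing_point_transfer`), `C = chartIncl(C₀) + ϖ C` (`H46.chart_dec_ratForm_hom`, with
  the chart facts `H92.chartE_facts_inertiaField`), and `H97.fib_of_dec`.
-/
import Fermat.Agent.S34.H30.SemiClose
import Fermat.Agent.S34.H77.CrossDefs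
import Fermat.Agent.S34.H92.CrossBase
import Fermat.Agent.S34.H92.CrossChartE
import Fermat.Agent.S35.H97.ChartBranch

set_option autoImplicit false
set_option linter.style.haveILetI false
set_option linter.unusedSectionVars false

open AlgebraicCurve ModularCurve

noncomputable section

namespace Fermat.Agent.S35.H28

open Fermat.Agent.S34.H27 Fermat.Agent.S34.H30 Fermat.Agent.S34.H77
  Fermat.Agent.S18 Fermat.Agent.S18.H74 Fermat.Agent.S18.H19 Fermat.Agent.S34.H19
  Fermat.Agent.S34.H61 Fermat.Agent.S34.H64 Fermat.Agent.S34.H92 Fermat.Agent.S34.H46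

/-- **The transversality of the crossing points over the inertia field** (E-level form of the
last field of `H27.Crossing`; binder block of `S34.H77.RegularCrossLeaf`). -/
def CrossFibE : Prop :=
  ∀ (M q : ℕ) [NeZero M] [Fact q.Prime] (hqM : ¬ q ∣ M), LevelOK M q →
    ∀ (A : ValuationSubring Kb) (hA : A.LiesOverPrime q) (_hAtop : A ≠ ⊤)
      (O₁ : ValuationSubring (FN (M * q))) (w : FN (M * q) ≃+* FN (M * q)),
      TwoGauss M q hqM A hA O₁ w →
      ∀ (x₀ : FN M), IsBase M q hqM A hA x₀ → StdB M q x₀ →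
      ∀ (K₀ : IntermediateField ℚ Kb) [FiniteDimensional ℚ K₀] [Normal ℚ K₀]
        (jE : ↥(ratForm (M * q) (inertiaField A K₀))),
        (jE : FN (M * q)) = heckeAlphaBar Kb M q x₀ →
        letI := algComap (A.comap (algebraMap (inertiaField A K₀) Kb))
          (ratForm (M * q) (inertiaField A K₀))
        ∀ (y : Ideal ↥(chart ↥(A.comap (algebraMap (inertiaField A K₀) Kb)) jE)), y.IsMaximal →
          (∀ c : ↥(chart ↥(A.comap (algebraMap (inertiaField A K₀) Kb)) jE),
            (c : ↥(ratForm (M * q) (inertiaField A K₀))) ∈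
              (O₁.comap (algebraMap ↥(ratForm (M * q) (inertiaField A K₀))
                (FN (M * q)))).nonunits → c ∈ y) →
          (∀ c : ↥(chart ↥(A.comap (algebraMap (inertiaField A K₀) Kb)) jE),
            (c : ↥(ratForm (M * q) (inertiaField A K₀))) ∈
              ((gaussTwo M q O₁ w).comap
                (algebraMap ↥(ratForm (M * q) (inertiaField A K₀)) (FN (M * q)))).nonunits →
              c ∈ y) →
          ∀ r ∈ y, ∃ p₁ p₂ s : ↥(chart ↥(A.comap (algebraMap (inertiaField A K₀) Kb)) jE),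
            s ∉ y ∧
            (p₁ : ↥(ratForm (M * q) (inertiaField A K₀))) ∈
              (O₁.comap (algebraMap ↥(ratForm (M * q) (inertiaField A K₀))
                (FN (M * q)))).nonunits ∧
            (p₂ : ↥(ratForm (M * q) (inertiaField A K₀))) ∈
              ((gaussTwo M q O₁ w).comap
                (algebraMap ↥(ratForm (M * q) (inertiaField A K₀)) (FN (M * q)))).nonunits ∧
            s * r = p₁ + p₂

/-- The inclusion of the `E`-form into the `K`-form reflects the nonunits of the restrictions of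
a valuation ring of `F_N`. -/
theorem ratIncl_mem_nonunits_iff (N : ℕ) {E K : IntermediateField ℚ Kb} (hEK : E ≤ K)
    (O : ValuationSubring (FN N)) (c : ↥(ratForm N E)) :
    ratIncl N hEK c ∈ (O.comap (algebraMap ↥(ratForm N K) (FN N))).nonunits ↔
      c ∈ (O.comap (algebraMap ↥(ratForm N E) (FN N))).nonunits := by
  refine mem_nonunits_iff_of_mem_iff (ratIncl N hEK)
    (O.comap (algebraMap ↥(ratForm N E) (FN N))) (O.comap (algebraMap ↥(ratForm N K) (FN N)))
    (fun f => ?_) c
  rw [ValuationSubring.mem_comap, ValuationSubring.mem_comap]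
  have h : algebraMap ↥(ratForm N K) (FN N) (ratIncl N hEK f)
      = algebraMap ↥(ratForm N E) (FN N) f := coe_ratIncl N hEK f
  rw [h]

/-- The transversality clause of `H27.Crossing` at the closed points of the finite chart of a
two-valuation model lying on both components. -/
def Fib₁ {M : ℕ} (D : VData M) : Prop :=
  ∀ x : Ideal ↥D.C₁, x.IsMaximal → algebraMap D.A₀ ↥D.C₁ D.ϖ ∈ x → Both D.V₁ D.V₂ D.C₁ x →
    ∀ r : ↥D.C₁, r ∈ x → ∃ p₁ p₂ s : ↥D.C₁, s ∉ x ∧ (p₁ : D.F₀) ∈ D.V₁.nonunits ∧
      (p₂ : D.F₀) ∈ D.V₂.nonunits ∧ s * r = p₁ + p₂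

set_option synthInstance.maxHeartbeats 400000 in
set_option maxHeartbeats 1600000 in
/-- **The transversality clause on the concrete model, from the inertia field.** -/
theorem crossFib_stdV_of_E (hE : CrossFibE) (M q : ℕ) [NeZero M] [Fact q.Prime] (hqM : ¬ q ∣ M)
    (hlev : LevelOK M q) (A : ValuationSubring Kb) (hA : A.LiesOverPrime q) (hAtop : A ≠ ⊤)
    (O₁ : ValuationSubring (FN (M * q))) (w : FN (M * q) ≃+* FN (M * q))
    (hTG : TwoGauss M q hqM A hA O₁ w) (x₀ : FN M) (hx₀ : IsBase M q hqM A hA x₀)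
    (hB : StdB M q x₀)
    (K₀ : IntermediateField ℚ Kb) [FiniteDimensional ℚ K₀] [Normal ℚ K₀]
    (ϖ : ↥(A.comap (algebraMap K₀ Kb))) (hϖ : Irreducible ϖ)
    (j : ↥(ratForm (M * q) K₀)) (hj : (j : FN (M * q)) = heckeAlphaBar Kb M q x₀)
    (τ : Kb ≃ₐ[ℚ] Kb) : Fib₁ (stdV M q A hAtop O₁ w K₀ ϖ j τ) := by
  have hq : q.Prime := Fact.out
  haveI : NeZero q := ⟨hq.ne_zero⟩
  letI algK := algComap (A.comap (algebraMap K₀ Kb)) (ratForm (M * q) K₀)
  letI algE := algComap (A.comap (algebraMap (inertiaField A K₀) Kb))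
    (ratForm (M * q) (inertiaField A K₀))
  haveI := Fermat.Agent.S34.H78.isDVR_comap hAtop K₀
  obtain ⟨π, e, g, hIB, hπ0, hg0⟩ := inertiaBase_exists A K₀ q hq hA
  have hsemi := semiLeaf M q hqM A hA hAtop O₁ w hTG x₀ hx₀ K₀ ϖ hϖ j hj τ
  -- the coordinate over the inertia field
  have hxm : x₀ ∈ ratForm M (inertiaField A K₀) :=
    mem_ratForm_of_mem_range M (inertiaField A K₀) hx₀.1
  set jE : ↥(ratForm (M * q) (inertiaField A K₀)) :=
    alphaForm M q (inertiaField A K₀) ⟨x₀, hxm⟩ with hjE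
  have hjEcoe : (jE : FN (M * q)) = heckeAlphaBar Kb M q x₀ := rfl
  have hjeq : j = ratIncl (M * q) hIB.le jE := by
    apply Subtype.ext
    rw [coe_ratIncl, hjEcoe]
    exact hj
  subst hjeq
  -- the chart facts over the inertia field and the decomposition
  obtain ⟨hicl, -, hfrac, hrad⟩ :=
    chartE_facts_inertiaField M q hqM A hA hAtop O₁ w hTG x₀ hx₀ K₀ jE hjEcoe
  have hdec := chart_dec_ratForm_hom (M * q) A hIB hq.ne_zero hπ0 hg0 ϖ hϖ jE hicl hfrac hrad
  intro x hx hϖx hboth r hr
  -- the point below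
  haveI := hx
  obtain ⟨hymax, hy₁, hy₂⟩ :=
    crossing_point_transfer (M * q) A hIB jE O₁ (gaussTwo M q O₁ w) x hboth.1 hboth.2
  have hfibE := hE M q hqM hlev A hA hAtop O₁ w hTG x₀ hx₀ hB K₀ jE hjEcoe
    (x.comap (chartIncl (M * q) A hIB.le jE)) hymax hy₁ hy₂
  -- the uniformiser lies in the first component
  have hϖ₁ : ((algebraMap ↥(A.comap (algebraMap K₀ Kb))
      ↥(chart ↥(A.comap (algebraMap K₀ Kb)) (ratIncl (M * q) hIB.le jE)) ϖ :
        ↥(chart ↥(A.comap (algebraMap K₀ Kb)) (ratIncl (M * q) hIB.le jE))) :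
        ↥(ratForm (M * q) K₀)) ∈
      (O₁.comap (algebraMap ↥(ratForm (M * q) K₀) (FN (M * q)))).nonunits := by
    refine (hsemi.unif₁ _).2 ⟨1, one_mem _, ?_⟩
    rw [Algebra.smul_def, mul_one]
    rfl
  refine Fermat.Agent.S35.H97.fib_of_dec
    (chart ↥(A.comap (algebraMap K₀ Kb)) (ratIncl (M * q) hIB.le jE))
    (O₁.comap (algebraMap ↥(ratForm (M * q) K₀) (FN (M * q))))
    ((gaussTwo M q O₁ w).comap (algebraMap ↥(ratForm (M * q) K₀) (FN (M * q))))
    hsemi.le₁₁ x (chartIncl (M * q) A hIB.le jE)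
    (algebraMap ↥(A.comap (algebraMap K₀ Kb))
      ↥(chart ↥(A.comap (algebraMap K₀ Kb)) (ratIncl (M * q) hIB.le jE)) ϖ) hϖx hϖ₁ hdec ?_ r hr
  intro a ha
  obtain ⟨p₁, p₂, s, hs, hp₁, hp₂, hsa⟩ := hfibE a (Ideal.mem_comap.mpr ha)
  refine ⟨p₁, p₂, s, fun h => hs (Ideal.mem_comap.mpr h), ?_, ?_, hsa⟩
  · rw [coe_chartIncl]
    exact (ratIncl_mem_nonunits_iff (M * q) hIB.le O₁ _).2 hp₁
  · rw [coe_chartIncl]
    exact (ratIncl_mem_nonunits_iff (M * q) hIB.le (gaussTwo M q O₁ w) _).2 hp₂

end Fermat.Agent.S35.H28
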