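/-
S35-GEO, leaf L6(b) (helper28): the transversality of a regular node, abstract form.

* `node_max_le_sup` : in a local domain whose maximal ideal is `(J, b)` with `J * b = q ≠ 0`,
  two primes `p₁`, `p₂` containing `q` with `p₁ ⊓ p₂ ≤ (q)` (reduced special fibre) satisfy
  `m ≤ p₁ ⊔ p₂` (one of `J`, `b` lies in `p₁`, the other one in `p₂`).
* `node_map_le_sup` : the same for the local ring `Localization.AtPrime y` of a domain `C` at a
  prime `y` containing two primes `P₁`, `P₂` with `P₁ ⊓ P₂ ≤ (q)`: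
  `y C_y ≤ P₁ C_y ⊔ P₂ C_y` — the hypothesis `hsup` of `H97.fib_of_localization`.
Mathlib only.
-/
import Mathlib

set_option autoImplicit false

namespace Fermat.Agent.S35.H28

/-- **A regular node is transversal.** -/
theorem node_max_le_sup {R : Type*} [CommRing R] [IsDomain R] [IsLocalRing R] (q J b : R)
    (hq : q ≠ 0) (hJb : J * b = q)
    (hm : IsLocalRing.maximalIdeal R = Ideal.span {J, b})
    (p₁ p₂ : Ideal R) (hp₁ : p₁.IsPrime) (hp₂ : p₂.IsPrime) (hq₁ : q ∈ p₁) (hq₂ : q ∈ p₂)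
    (hinf : p₁ ⊓ p₂ ≤ Ideal.span {q}) :
    IsLocalRing.maximalIdeal R ≤ p₁ ⊔ p₂ := by
  have hJm : J ∈ IsLocalRing.maximalIdeal R := by
    rw [hm]
    exact Ideal.subset_span (Set.mem_insert J {b})
  have hbm : b ∈ IsLocalRing.maximalIdeal R := by
    rw [hm]
    exact Ideal.subset_span (Set.mem_insert_of_mem J (Set.mem_singleton b))
  -- neither `J` nor `b` lies in both primes
  have hJ : ¬ (J ∈ p₁ ∧ J ∈ p₂) := by
    rintro ⟨h1, h2⟩
    obtain ⟨r, hr⟩ := Ideal.mem_span_singleton.mp (hinf ⟨h1, h2⟩)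
    have h3 : q * (r * b) = q * 1 := by
      rw [mul_one, ← mul_assoc, ← hr, hJb]
    have h4 : r * b = 1 := mul_left_cancel₀ hq h3
    exact (IsLocalRing.mem_maximalIdeal b).mp hbm (IsUnit.of_mul_eq_one r (by rw [mul_comm]; exact h4))
  have hb : ¬ (b ∈ p₁ ∧ b ∈ p₂) := by
    rintro ⟨h1, h2⟩
    obtain ⟨r, hr⟩ := Ideal.mem_span_singleton.mp (hinf ⟨h1, h2⟩)
    have h3 : q * (J * r) = q * 1 := by
      rw [mul_one, mul_left_comm, ← hr, hJb]
    have h4 : J * r = 1 := mul_left_cancel₀ hq h3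
    exact (IsLocalRing.mem_maximalIdeal J).mp hJm (IsUnit.of_mul_eq_one r h4)
  have h1 : J ∈ p₁ ∨ b ∈ p₁ := hp₁.mem_or_mem (by rw [hJb]; exact hq₁)
  have h2 : J ∈ p₂ ∨ b ∈ p₂ := hp₂.mem_or_mem (by rw [hJb]; exact hq₂)
  rw [hm, Ideal.span_le]
  intro z hz
  rw [Set.mem_insert_iff, Set.mem_singleton_iff] at hz
  rcases h1 with h1 | h1 <;> rcases h2 with h2 | h2
  · exact absurd ⟨h1, h2⟩ hJ
  · rcases hz with rfl | rfl
    · exact Ideal.mem_sup_left h1
    · exact Ideal.mem_sup_right h2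
  · rcases hz with rfl | rfl
    · exact Ideal.mem_sup_right h2
    · exact Ideal.mem_sup_left h1
  · exact absurd ⟨h1, h2⟩ hb

/-- **The node in a localisation**: `y C_y ≤ P₁ C_y ⊔ P₂ C_y`. -/
theorem node_map_le_sup {C : Type*} [CommRing C] [IsDomain C] (y : Ideal C) [hy : y.IsPrime]
    (P₁ P₂ : Ideal C) (hP₁ : P₁.IsPrime) (hP₂ : P₂.IsPrime) (h₁ : P₁ ≤ y) (h₂ : P₂ ≤ y)
    (q : C) (hq : q ≠ 0) (hq₁ : q ∈ P₁) (hq₂ : q ∈ P₂) (hinf : P₁ ⊓ P₂ ≤ Ideal.span {q})
    (J b : Localization.AtPrime y)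
    (hJb : J * b = algebraMap C (Localization.AtPrime y) q)
    (hm : IsLocalRing.maximalIdeal (Localization.AtPrime y) = Ideal.span {J, b}) :
    Ideal.map (algebraMap C (Localization.AtPrime y)) y ≤
      Ideal.map (algebraMap C (Localization.AtPrime y)) P₁ ⊔
        Ideal.map (algebraMap C (Localization.AtPrime y)) P₂ := by
  have hd₁ : Disjoint (y.primeCompl : Set C) (P₁ : Set C) := by
    rw [Set.disjoint_left]
    intro z hz hz'
    exact hz (h₁ hz')
  have hd₂ : Disjoint (y.primeCompl : Set C) (P₂ : Set C) := by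
    rw [Set.disjoint_left]
    intro z hz hz'
    exact hz (h₂ hz')
  have hp₁ := IsLocalization.isPrime_of_isPrime_disjoint y.primeCompl (Localization.AtPrime y)
    P₁ hP₁ hd₁
  have hp₂ := IsLocalization.isPrime_of_isPrime_disjoint y.primeCompl (Localization.AtPrime y)
    P₂ hP₂ hd₂
  have hq0 : algebraMap C (Localization.AtPrime y) q ≠ 0 := by
    intro h0
    apply hq
    exact (IsLocalization.to_map_eq_zero_iff (Localization.AtPrime y)
      y.primeCompl_le_nonZeroDivisors).mp h0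
  have hinf' : Ideal.map (algebraMap C (Localization.AtPrime y)) P₁ ⊓
      Ideal.map (algebraMap C (Localization.AtPrime y)) P₂ ≤
      Ideal.span {algebraMap C (Localization.AtPrime y) q} := by
    rw [← IsLocalization.map_inf y.primeCompl (Localization.AtPrime y) P₁ P₂]
    refine (Ideal.map_mono hinf).trans ?_
    rw [Ideal.map_span, Set.image_singleton]
  rw [Localization.AtPrime.map_eq_maximalIdeal]
  exact node_max_le_sup _ J b hq0 hJb hm _ _ hp₁ hp₂ (Ideal.mem_map_of_mem _ hq₁)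
    (Ideal.mem_map_of_mem _ hq₂) hinf'

end Fermat.Agent.S35.H28
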