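/-
S35-GEO, leaf L6(b) (helper28): the transversality clause of `H27.Crossing` at a regular node
of a chart, abstract chart form.

`node_fib` : `C` a chart inside two valuation rings `V₁`, `V₂`, `y` a prime of `C` containing the
two components `C ∩ m(V₁)`, `C ∩ m(V₂)`, `q ∈ C` nonzero in both components, the special fibre
reduced (`C ∩ m(V₁) ∩ m(V₂) = q C`); if the maximal ideal of the local ring `C_y` is `(J, b)`
with `J * b = q`, then every `r ∈ y` is, up to an element outside `y`, the sum of an element of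
the first and an element of the second component.
(`node_map_le_sup` + `H97.fib_of_localization` for the two ideals `H68.valIdeal`.)
-/
import Fermat.Agent.S35.H28.NodeSplit
import Fermat.Agent.S34.H68.CrossChart
import Fermat.Agent.S35.H97.ChartBranch

set_option autoImplicit false

namespace Fermat.Agent.S35.H28

/-- **The transversality clause at a regular node of a chart.** -/
theorem node_fib {A₀ F : Type*} [CommRing A₀] [Field F] [Algebra A₀ F] (C : Subalgebra A₀ F)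
    (V₁ V₂ : ValuationSubring F) (hCV₁ : ∀ c ∈ C, c ∈ V₁) (hCV₂ : ∀ c ∈ C, c ∈ V₂)
    (y : Ideal ↥C) [hy : y.IsPrime]
    (hy₁ : ∀ c : ↥C, (c : F) ∈ V₁.nonunits → c ∈ y)
    (hy₂ : ∀ c : ↥C, (c : F) ∈ V₂.nonunits → c ∈ y)
    (q : ↥C) (hq : q ≠ 0) (hq₁ : (q : F) ∈ V₁.nonunits) (hq₂ : (q : F) ∈ V₂.nonunits)
    (hred : ∀ c : ↥C, (c : F) ∈ V₁.nonunits → (c : F) ∈ V₂.nonunits → q ∣ c)
    (J b : Localization.AtPrime y)
    (hJb : J * b = algebraMap ↥C (Localization.AtPrime y) q)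
    (hm : IsLocalRing.maximalIdeal (Localization.AtPrime y) = Ideal.span {J, b})
    (r : ↥C) (hr : r ∈ y) :
    ∃ p₁ p₂ s : ↥C, s ∉ y ∧ (p₁ : F) ∈ V₁.nonunits ∧ (p₂ : F) ∈ V₂.nonunits ∧
      s * r = p₁ + p₂ := by
  have hinf : Fermat.Agent.S34.H68.valIdeal C V₁ hCV₁ ⊓ Fermat.Agent.S34.H68.valIdeal C V₂ hCV₂ ≤
      Ideal.span {q} := by
    rintro c ⟨h1, h2⟩
    exact Ideal.mem_span_singleton.mpr (hred c h1 h2)
  have hsup := node_map_le_sup y (Fermat.Agent.S34.H68.valIdeal C V₁ hCV₁)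
    (Fermat.Agent.S34.H68.valIdeal C V₂ hCV₂)
    (Fermat.Agent.S34.H68.valIdeal_isPrime C V₁ hCV₁)
    (Fermat.Agent.S34.H68.valIdeal_isPrime C V₂ hCV₂)
    (fun c hc => hy₁ c hc) (fun c hc => hy₂ c hc) q hq hq₁ hq₂ hinf J b hJb hm
  exact Fermat.Agent.S35.H97.fib_of_localization C V₁ V₂ y
    (Fermat.Agent.S34.H68.valIdeal C V₁ hCV₁) (Fermat.Agent.S34.H68.valIdeal C V₂ hCV₂)
    (fun c hc => hc) (fun c hc => hc) (Localization.AtPrime y) hsup r hr

end Fermat.Agent.S35.H28
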