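/-
S35-GEO, leaf L6(b) (helper28): the transversality of the crossing points over the inertia
field, from the regular node of Program B' (S34).

`crossFibE_of_regular : S34.H77.RegularCrossLeaf → CrossFibE`.

At a closed point `y` on both components of the chart `C` over the unramified base `A ∩ E`, the
local ring has maximal ideal `(J, b)` with `J * b = q` (`RegularCrossLeaf`, the interface of
the leaf M6b of S34).  The special fibre is reduced, `P₁ ⊓ P₂ = (q)` (`H92.vGood_unramified`:
uniformiser clauses and saturation), so one of `J`, `b` lies in `P₁` and the other one in `P₂`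
(`node_fib`: `node_map_le_sup` and `H97.fib_of_localization`).
-/
import Fermat.Agent.S35.H28.NodeFib
import Fermat.Agent.S35.H28.CrossFibK
import Fermat.Agent.S34.H68.CrossChart
import Fermat.Agent.S34.H9.OneComp

set_option autoImplicit false
set_option linter.style.haveILetI false
set_option linter.unusedSectionVars false

open AlgebraicCurve ModularCurve

noncomputable section

namespace Fermat.Agent.S35.H28

open Fermat.Agent.S34.H27 Fermat.Agent.S34.H30 Fermat.Agent.S34.H77
  Fermat.Agent.S18 Fermat.Agent.S18.H74 Fermat.Agent.S18.H19 Fermat.Agent.S34.H19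
  Fermat.Agent.S34.H61 Fermat.Agent.S34.H64 Fermat.Agent.S34.H92 Fermat.Agent.S34.H46

set_option synthInstance.maxHeartbeats 400000 in
set_option maxHeartbeats 1600000 in
/-- **The crossing points over the inertia field are transversal**, from the regular node. -/
theorem crossFibE_of_regular (hreg : RegularCrossLeaf) : CrossFibE := by
  intro M q _ _ hqM hlev A hA hAtop O₁ w hTG x₀ hx₀ hB K₀ _ _ jE hjE
  letI algE := algComap (A.comap (algebraMap (inertiaField A K₀) Kb))
    (ratForm (M * q) (inertiaField A K₀))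
  intro y hymax hy₁ hy₂ r hr
  have hq : q.Prime := Fact.out
  haveI : NeZero q := ⟨hq.ne_zero⟩
  haveI hyp : y.IsPrime := hymax.isPrime
  obtain ⟨π, e, g, hIB, -, -⟩ := inertiaBase_exists A K₀ q hq hA
  haveI := hIB.fin
  have hqE := hIB.irreducible_natCast hq hA
  have hV := vGood_unramified M q hqM A hA hAtop O₁ w hTG x₀ hx₀ (inertiaField A K₀) hqE jE hjE
  obtain ⟨J, b, hJb, hm⟩ := hreg M q hqM hlev A hA hAtop O₁ w hTG x₀ hx₀ hB K₀ jE hjE y hymax
    hy₁ hy₂
  have hq0F : algebraMap ↥(A.comap (algebraMap (inertiaField A K₀) Kb))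
      ↥(ratForm (M * q) (inertiaField A K₀))
      ((q : ℕ) : ↥(A.comap (algebraMap (inertiaField A K₀) Kb))) ≠ 0 := by
    rw [map_natCast]
    exact Nat.cast_ne_zero.mpr hq.ne_zero
  have hq0 : ((q : ℕ) : ↥(chart ↥(A.comap (algebraMap (inertiaField A K₀) Kb)) jE)) ≠ 0 :=
    Nat.cast_ne_zero.mpr hq.ne_zero
  have hqcoe : (((q : ℕ) : ↥(chart ↥(A.comap (algebraMap (inertiaField A K₀) Kb)) jE)) :
      ↥(ratForm (M * q) (inertiaField A K₀)))
      = ((q : ℕ) : ↥(A.comap (algebraMap (inertiaField A K₀) Kb))) •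
        (1 : ↥(ratForm (M * q) (inertiaField A K₀))) := by
    rw [Algebra.smul_def, mul_one, map_natCast]
    rfl
  have hq₁ : (((q : ℕ) : ↥(chart ↥(A.comap (algebraMap (inertiaField A K₀) Kb)) jE)) :
      ↥(ratForm (M * q) (inertiaField A K₀))) ∈
        (gaussOne M q O₁ (inertiaField A K₀)).nonunits := by
    rw [hqcoe]
    exact (hV.unif₁ _).2 ⟨1, one_mem _, rfl⟩
  have hq₂ : (((q : ℕ) : ↥(chart ↥(A.comap (algebraMap (inertiaField A K₀) Kb)) jE)) :
      ↥(ratForm (M * q) (inertiaField A K₀))) ∈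
        (gaussTwoForm M q O₁ w (inertiaField A K₀)).nonunits := by
    rw [hqcoe]
    exact (hV.unif₂ _).2 ⟨1, one_mem _, rfl⟩
  have hred : ∀ c : ↥(chart ↥(A.comap (algebraMap (inertiaField A K₀) Kb)) jE),
      (c : ↥(ratForm (M * q) (inertiaField A K₀))) ∈
        (gaussOne M q O₁ (inertiaField A K₀)).nonunits →
      (c : ↥(ratForm (M * q) (inertiaField A K₀))) ∈
        (gaussTwoForm M q O₁ w (inertiaField A K₀)).nonunits →
      ((q : ℕ) : ↥(chart ↥(A.comap (algebraMap (inertiaField A K₀) Kb)) jE)) ∣ c := by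
    intro c h1 h2
    obtain ⟨d, hd, hcd⟩ := Fermat.Agent.S34.H9.red_of_unif_sat
      ((q : ℕ) : ↥(A.comap (algebraMap (inertiaField A K₀) Kb))) hq0F _ _ _
      hV.unif₁ hV.unif₂ hV.sat₁ (c : ↥(ratForm (M * q) (inertiaField A K₀))) c.2 h1 h2
    refine ⟨⟨d, hd⟩, Subtype.ext ?_⟩
    rw [hcd, Algebra.smul_def, map_natCast]
    rfl
  have hJb' : J * b = algebraMap ↥(chart ↥(A.comap (algebraMap (inertiaField A K₀) Kb)) jE)
      (Localization.AtPrime y)
      ((q : ℕ) : ↥(chart ↥(A.comap (algebraMap (inertiaField A K₀) Kb)) jE)) := by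
    rw [map_natCast]
    exact hJb
  exact node_fib (chart ↥(A.comap (algebraMap (inertiaField A K₀) Kb)) jE)
    (gaussOne M q O₁ (inertiaField A K₀)) (gaussTwoForm M q O₁ w (inertiaField A K₀))
    hV.le₁₁ hV.le₁₂ y hy₁ hy₂ _ hq0 hq₁ hq₂ hred J b hJb' hm r hr

end Fermat.Agent.S35.H28
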