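/-
S35-GEO, leaf L6(b) CLOSED (helper28): the closed points of the finite chart of the concrete
model `S34.H30.stdV` lying on both components of the special fibre are crossing points in the
sense of `H27.Crossing`, for the standard base function:

  `crossFrobLeafB₁_std : H27.CrossFrobLeafB₁ H30.StdB`.

The six fields of `H27.Crossing D.C₁ D.V₁ D.V₂ S₀ (q ^ 2) m x`, `S₀ = frobSq (M q) K₀ σ`:
* 1, 2 : the hypothesis `Both`;
* 3 (N3) : `S35.H28.crossN3_stdV` (helper28: `H57.crossing_frob_val`, the Kronecker congruences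
  on the `K₀`-forms, residue degree one on the first component);
* 4, 5 : `S35.H95.branchNormal_stdV_of_both` (helper95, on helper97's `branchNormal_of_chart_hom`);
* 6 : `S35.H10.crossFib_stdV_std` (helper10: transfer from the inertia field; helper60:
  transversality over the inertia field `S35.H60.transCross_std`);
the base-function input `β x₀ ∈ C₁` is `S35.H53.betaj_mem_chart_stdV` (helper53, on helper43's
`hbetaC_ratForm`).
-/
import Fermat.Agent.S35.H27.FrobRootB
import Fermat.Agent.S35.H28.CrossN3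
import Fermat.Agent.S35.H53.BetaJ
import Fermat.Agent.S35.H95.BranchStd
import Fermat.Agent.S35.H10.CrossFibStd

set_option autoImplicit false
set_option linter.style.haveILetI false
set_option linter.unusedSectionVars false

open AlgebraicCurve ModularCurve

noncomputable section

namespace Fermat.Agent.S35.H28

open Fermat.Agent.S34.H27 Fermat.Agent.S34.H30 Fermat.Agent.S34.H77
  Fermat.Agent.S18 Fermat.Agent.S18.H74 Fermat.Agent.S18.H19 Fermat.Agent.S34.H19
  Fermat.Agent.S34.H61 Fermat.Agent.S34.H64 Fermat.Agent.S35.H27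

set_option synthInstance.maxHeartbeats 400000 in
set_option maxHeartbeats 1600000 in
/-- **Leaf (L6b), finite chart, for the standard base function: proved.** -/
theorem crossFrobLeafB₁_std : CrossFrobLeafB₁ StdB := by
  intro M q _ _ hqM _ A hA hAtop O₁ w hTG x₀ hx₀ hB K₀ _ _ ϖ hϖ j hj σ σ' hσ m hm x hx hϖx hboth
  haveI := hx.isPrime
  have hβj := Fermat.Agent.S35.H53.betaj_mem_chart_stdV hAtop hTG x₀ hx₀ hB K₀ ϖ j hj σ'
  obtain ⟨bn₁, bn₂⟩ := Fermat.Agent.S35.H95.branchNormal_stdV_of_both M q hqM A hA hAtop O₁ w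
    hTG x₀ hx₀ K₀ ϖ hϖ j hj σ' hβj x hboth m hm
  have hfib := Fermat.Agent.S35.H10.crossFib_stdV_std M q hqM A hA hAtop O₁ w hTG x₀ hx₀ hB K₀
    ϖ hϖ j hj σ'
  exact ⟨hboth.1, hboth.2,
    fun c => crossN3_stdV M q hqM A hA hAtop O₁ w hTG x₀ hx₀ K₀ ϖ hϖ j hj σ' σ hσ hβj x hboth c,
    bn₁, bn₂, hfib x hx hϖx hboth⟩

end Fermat.Agent.S35.H28
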