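/-
S35-GEO, leaf L6(b), field (N3) of `H27.Crossing` on the concrete model (helper28).

On the two-valuation model `S34.H30.stdV M q A hAtop O₁ w K₀ ϖ j τ` of `X₀(M q)` over the
(possibly ramified) base `A ∩ K₀`, at an ideal `x` of the finite chart `C₁ = chart A₀ j`,
`j = α x₀`, lying on both components of the special fibre, the square of the Frobenius twist
`S₀ = (tauForm (M q) K₀ σ).trans (tauForm (M q) K₀ σ)` (`σ` a Frobenius at `A ∣ q`) is the
`q²`-power map modulo `x`: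

  `S₀ c = c ^ (q ^ 2) + d`,  `d ∈ x`,   for every `c ∈ C₁`.

This is `H57.crossing_frob_val` for the level-`M` chart `C' = chart A₀ x₀`, the two degeneracy
maps `α`, `β` on the `K₀`-forms, the two Kronecker congruences `H34.kron1_ratForm`,
`H34.kron2_ratForm` (at `E = K₀`), and `C₁ = α(C') + C₁ ∩ m(V₁)` (`H68.exists_sub_chartMap_mem`:
residue degree one on the first component).  The only input depending on the base function is
`β x₀ ∈ C₁` (`hβj`; modular equation for `j(q^M)`, `H42.beta_mem_chart_of_rel` for Hauptmoduln).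
No node input, no base change to the inertia field.
-/
import Fermat.Agent.S34.H30.SemiClose
import Fermat.Agent.S34.H34.FrobForm
import Fermat.Agent.S34.H68.CrossChart
import Fermat.Agent.S34.H42.CuspHaupt
import Fermat.Agent.S35.H57.CrossFrob
import Fermat.Agent.S35.H27.FrobCech

set_option autoImplicit false
set_option linter.style.haveILetI false
set_option linter.unusedSectionVars false

open AlgebraicCurve ModularCurve

noncomputable section

namespace Fermat.Agent.S35.H28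

open Fermat.Agent.S34.H27 Fermat.Agent.S34.H30
  Fermat.Agent.S18 Fermat.Agent.S18.H74 Fermat.Agent.S18.H19 Fermat.Agent.S34.H19
  Fermat.Agent.S34.H61 Fermat.Agent.S34.H64

/-- A ring automorphism preserving a valuation subring (in both directions) preserves its
nonunits. -/
theorem map_mem_nonunits_of_mem_iff {F : Type*} [Field F] (V : ValuationSubring F) (S : F ≃+* F)
    (hS : ∀ y : F, S y ∈ V ↔ y ∈ V) {y : F} (hy : y ∈ V.nonunits) : S y ∈ V.nonunits := by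
  rw [ValuationSubring.mem_nonunits_iff_or] at hy ⊢
  rcases hy with h0 | hinv
  · left
    rw [h0, map_zero]
  · right
    intro h
    apply hinv
    rw [← map_inv₀] at h
    exact (hS _).1 h

set_option synthInstance.maxHeartbeats 400000 in
set_option maxHeartbeats 1600000 in
/-- **(N3) on the concrete model**: at an ideal `x` of the finite chart of `stdV` on both
components of the special fibre, the square of the Frobenius twist is the `q²`-power map modulo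
`x`.  `hβj` : the `β`-image of the base function lies in the finite chart. -/
theorem crossN3_stdV (M q : ℕ) [NeZero M] [Fact q.Prime] (hqM : ¬ q ∣ M)
    (A : ValuationSubring Kb) (hA : A.LiesOverPrime q) (hAtop : A ≠ ⊤)
    (O₁ : ValuationSubring (FN (M * q))) (w : FN (M * q) ≃+* FN (M * q))
    (hTG : TwoGauss M q hqM A hA O₁ w) (x₀ : FN M) (hx₀ : IsBase M q hqM A hA x₀)
    (K₀ : IntermediateField ℚ Kb) [FiniteDimensional ℚ K₀] [Normal ℚ K₀]
    (ϖ : ↥(A.comap (algebraMap K₀ Kb))) (hϖ : Irreducible ϖ)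
    (j : ↥(ratForm (M * q) K₀)) (hj : (j : FN (M * q)) = heckeAlphaBar Kb M q x₀)
    (τ σ : Kb ≃ₐ[ℚ] Kb) (hσ : A.IsFrobeniusAt σ q)
    (hβj : ∀ j₂ : ↥(ratForm (M * q) K₀), (j₂ : FN (M * q)) = heckeBetaBar Kb M q x₀ →
      j₂ ∈ (stdV M q A hAtop O₁ w K₀ ϖ j τ).C₁)
    (x : Ideal ↥(stdV M q A hAtop O₁ w K₀ ϖ j τ).C₁)
    (hboth : Both (stdV M q A hAtop O₁ w K₀ ϖ j τ).V₁ (stdV M q A hAtop O₁ w K₀ ϖ j τ).V₂
      (stdV M q A hAtop O₁ w K₀ ϖ j τ).C₁ x)
    (c : ↥(stdV M q A hAtop O₁ w K₀ ϖ j τ).C₁) :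
    ∃ d : ↥(stdV M q A hAtop O₁ w K₀ ϖ j τ).C₁, d ∈ x ∧
      ((tauForm (M * q) K₀ σ).trans (tauForm (M * q) K₀ σ)) (c : ↥(ratForm (M * q) K₀))
        = (c : ↥(ratForm (M * q) K₀)) ^ (q ^ 2) + (d : ↥(ratForm (M * q) K₀)) := by
  have hq : q.Prime := Fact.out
  haveI : NeZero q := ⟨hq.ne_zero⟩
  letI iM := algComap (A.comap (algebraMap K₀ Kb)) (ratForm M K₀)
  letI iMq := algComap (A.comap (algebraMap K₀ Kb)) (ratForm (M * q) K₀)
  haveI := Fermat.Agent.S34.H78.isDVR_comap hAtop K₀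
  haveI := Fermat.Agent.S34.H78.faithfulSMul_comap A K₀ (ratForm M K₀)
  letI iα := algAlpha M q K₀
  haveI := isScalarTower_algAlpha M q K₀ A
  have hxm : x₀ ∈ ratForm M K₀ := mem_ratForm_of_mem_range M K₀ hx₀.1
  obtain ⟨hS, -⟩ := hx₀.2 K₀ hxm
  have hdeg := Fermat.Agent.S34.H59.finrank_alphaForm M q K₀ Fact.out hqM
  have hdvr : IsDiscreteValuationRing ↥(gaussForm M hqM A hA K₀) :=
    Fermat.Agent.S34.H10.isDiscreteValuationRing_of_dsetup hϖ hS
  have hT := twoExt_ratForm hTG K₀ hdvr hdeg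
  have hsemi := semiLeaf M q hqM A hA hAtop O₁ w hTG x₀ hx₀ K₀ ϖ hϖ j hj τ
  have hjeq : j = alphaForm M q K₀ ⟨x₀, hxm⟩ := Subtype.ext hj
  subst hjeq
  have hd := hσ.mem_decompositionSubgroup
  have hd' : σ.symm ∈ A.decompositionSubgroup ℚ := (A.decompositionSubgroup ℚ).inv_mem hd
  -- the base function is rational
  have hxrat : (((⟨x₀, hxm⟩ : ↥(ratForm M K₀)) : ↥(ratForm M K₀)) : FN M) ∈ Set.range (ratEmb M) :=
    hx₀.1
  have hjrat : ((alphaForm M q K₀ ⟨x₀, hxm⟩ : ↥(ratForm (M * q) K₀)) : FN (M * q)) ∈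
      Set.range (ratEmb (M * q)) := alphaForm_mem_range_ratEmb K₀ ⟨x₀, hxm⟩ hxrat
  -- the Frobenius twist on the level-`M` chart
  set s : ↥(chart ↥(A.comap (algebraMap K₀ Kb)) (⟨x₀, hxm⟩ : ↥(ratForm M K₀))) ≃+*
      ↥(chart ↥(A.comap (algebraMap K₀ Kb)) (⟨x₀, hxm⟩ : ↥(ratForm M K₀))) :=
    Fermat.Agent.S35.H27.resEquiv (chart ↥(A.comap (algebraMap K₀ Kb)) (⟨x₀, hxm⟩ : ↥(ratForm M K₀)))
      (tauForm M K₀ σ) (fun y => tauForm_mem_chart_iff M K₀ A σ hd ⟨x₀, hxm⟩ hxrat y) with hs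
  -- the two degeneracy maps on the level-`M` chart
  set α : ↥(chart ↥(A.comap (algebraMap K₀ Kb)) (⟨x₀, hxm⟩ : ↥(ratForm M K₀))) →+*
      ↥(ratForm (M * q) K₀) :=
    (alphaForm M q K₀).comp
      (chart ↥(A.comap (algebraMap K₀ Kb)) (⟨x₀, hxm⟩ : ↥(ratForm M K₀))).val.toRingHom with hα
  set β : ↥(chart ↥(A.comap (algebraMap K₀ Kb)) (⟨x₀, hxm⟩ : ↥(ratForm M K₀))) →+*
      ↥(ratForm (M * q) K₀) :=
    (betaForm M q K₀).comp
      (chart ↥(A.comap (algebraMap K₀ Kb)) (⟨x₀, hxm⟩ : ↥(ratForm M K₀))).val.toRingHom with hβ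
  have hαA : ∀ a : ↥(A.comap (algebraMap K₀ Kb)),
      alphaForm M q K₀ (algebraMap ↥(A.comap (algebraMap K₀ Kb)) ↥(ratForm M K₀) a)
        = algebraMap ↥(A.comap (algebraMap K₀ Kb)) ↥(ratForm (M * q) K₀) a :=
    fun a => alphaForm_algebraMap M q K₀ (a : K₀)
  have hβA : ∀ a : ↥(A.comap (algebraMap K₀ Kb)),
      betaForm M q K₀ (algebraMap ↥(A.comap (algebraMap K₀ Kb)) ↥(ratForm M K₀) a)
        = algebraMap ↥(A.comap (algebraMap K₀ Kb)) ↥(ratForm (M * q) K₀) a :=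
    fun a => betaForm_algebraMap M q K₀ (a : K₀)
  have hαC : ∀ g, α g ∈ chart ↥(A.comap (algebraMap K₀ Kb)) (alphaForm M q K₀ ⟨x₀, hxm⟩) :=
    fun g => Fermat.Agent.S34.H42.map_mem_chart_of_hom (alphaForm M q K₀) hαA ⟨x₀, hxm⟩ g.2
  have hβC : ∀ g, β g ∈ chart ↥(A.comap (algebraMap K₀ Kb)) (alphaForm M q K₀ ⟨x₀, hxm⟩) :=
    fun g => Fermat.Agent.S34.H42.map_chart_le_chart (betaForm M q K₀) hβA ⟨x₀, hxm⟩ _
      (hβj (betaForm M q K₀ ⟨x₀, hxm⟩) rfl) g.2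
  -- the chart lies in the Gauss ring
  have hle : ∀ g : ↥(chart ↥(A.comap (algebraMap K₀ Kb)) (⟨x₀, hxm⟩ : ↥(ratForm M K₀))),
      (g : ↥(ratForm M K₀)) ∈ gaussForm M hqM A hA K₀ :=
    fun g => Fermat.Agent.S18.H80.ds_chart_le hS _ g.2
  have hE : ∀ a ∈ K₀, σ a ∈ K₀ := fun a ha => map_mem_of_normal K₀ σ ha
  have hE' : ∀ a ∈ K₀, σ.symm a ∈ K₀ := fun a ha => map_mem_of_normal K₀ σ.symm ha
  have hV₁ : ∀ y : ↥(ratForm (M * q) K₀),
      tauForm (M * q) K₀ σ y ∈ O₁.comap (algebraMap ↥(ratForm (M * q) K₀) (FN (M * q))) ↔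
        y ∈ O₁.comap (algebraMap ↥(ratForm (M * q) K₀) (FN (M * q))) :=
    (tauForm_twoGauss_iff hTG K₀ σ hd).1
  have hc₁ : ∀ v : ↥(ratForm M K₀),
      algebraMap ↥(ratForm M K₀) ↥(ratForm (M * q) K₀) v ∈ gaussOne M q O₁ K₀ ↔
        v ∈ gaussForm M hqM A hA K₀ := fun v => alphaForm_mem_comap_iff hTG K₀ v
  exact Fermat.Agent.S35.H57.crossing_frob_val
    (chart ↥(A.comap (algebraMap K₀ Kb)) (alphaForm M q K₀ ⟨x₀, hxm⟩)) x
    (O₁.comap (algebraMap ↥(ratForm (M * q) K₀) (FN (M * q))))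
    ((gaussTwo M q O₁ w).comap (algebraMap ↥(ratForm (M * q) K₀) (FN (M * q))))
    hsemi.le₁₁ hsemi.le₁₂ hboth.1 hboth.2 α β hαC hβC s
    ((tauForm (M * q) K₀ σ : ↥(ratForm (M * q) K₀) ≃+* ↥(ratForm (M * q) K₀)) :
      ↥(ratForm (M * q) K₀) →+* ↥(ratForm (M * q) K₀))
    (fun y hy => (tauForm_mem_chart_iff (M * q) K₀ A σ hd _ hjrat y).2 hy)
    (fun y hy => map_mem_nonunits_of_mem_iff _ (tauForm (M * q) K₀ σ) hV₁ hy)
    (fun g => tauForm_alphaForm M q K₀ σ (g : ↥(ratForm M K₀)))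
    q
    (fun g => Fermat.Agent.S34.H34.kron1_ratForm hTG K₀ σ hσ hE hE' (g : ↥(ratForm M K₀)) (hle g))
    (fun g => Fermat.Agent.S34.H34.kron2_ratForm hTG K₀ σ hσ hE hE' (g : ↥(ratForm M K₀)) (hle g))
    (fun y hy => by
      obtain ⟨a, ha⟩ := Fermat.Agent.S34.H68.exists_sub_chartMap_mem ϖ hϖ
        (gaussForm M hqM A hA K₀) (⟨x₀, hxm⟩ : ↥(ratForm M K₀)) hS (gaussOne M q O₁ K₀)
        (gaussTwoForm M q O₁ w K₀) hc₁ hT ⟨y, hy⟩
      exact ⟨a, ha⟩)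
    c

end Fermat.Agent.S35.H28
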