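/-
S35 (ALG-PUSH), leaf (AJ-α) (helper28): push-forward compatibility of the Kummer relation with
the degeneracy map `α_* = H60.degAlpha N ℓ : J₀(Nℓ) → J₀(N)`:

  `ℓ` prime, `ℓ ∤ N`, `m ≠ 0`:   `Rel (N*ℓ) m ψ x  ⟹  Rel N m (trAlpha N ℓ (ZMod m) ψ) (degAlpha N ℓ x)`.

Recipe: from `(C, D, G)` at level `Nℓ`: `u := N_α(evF C) = evF P / evF Q`,
`C₁ := P · Q^(m-1)`, `D₁ := α_* D + div (evF Q)`, `G₁ := (G · ∏_b G ∘ γ_b) · Θ(Q)`.

* `rel_of_root` : the generic assembly (also usable for `β`);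
* divisor side: landed `S42.H13.pushforwardAlong_apply_eq_ord` + `S29.H60` norm formula;
* root: `theta_normAlpha` (`ThetaPush.lean`); character: `prodA_smul` (`CosetAlpha.lean`).
-/
import Mathlib
import Fermat.Agent.S42.H96.Defs
import Fermat.Agent.S42.H13.HeckeDiv
import Fermat.Agent.S42.H20.LeafAN6
import Fermat.Agent.S35.H60.DegDefs
import Fermat.Agent.S35.H28.CosetAlpha
import Fermat.Agent.S18.H13.PrincDiv

set_option autoImplicit false
set_option linter.style.haveILetI false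
set_option linter.unusedSectionVars false

open UpperHalfPlane CongruenceSubgroup ModularCurve AlgebraicCurve ModularCurve.Period
open scoped MatrixGroups Manifold

noncomputable section

namespace Fermat.Agent.S35.H28

open Fermat.Agent.S24 Fermat.Agent.S42.H96

theorem zetaP_pow_self (m : ℕ) (hm : m ≠ 0) : zetaP m ^ m = 1 :=
  (Complex.isPrimitiveRoot_exp m hm).pow_eq_one

/-- **Generic assembly of the Kummer relation from a root datum.**  If `m • D₁ = div u` and `R` is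
holomorphic with character `ζ_m ^ ψ'` and `Θ(P) = Θ(Q) · R^m` for every presentation
`u = evF P / evF Q`, then `Rel N m ψ' [D₁]`. -/
theorem rel_of_root (N m : ℕ) [NeZero N] (hm : m ≠ 0) (ψ' : Additive (Gamma0 N) →+ ZMod m)
    (D₁ : Divisor.degZero (K := Kbar) (F := FF N)) (u : FF N) (hu : u ≠ 0)
    (hD₁ : ∀ v : Place Kbar (FF N), (m : ℤ) * (D₁ : Divisor Kbar (FF N)) v = v.ord u)
    (R : ℍ → ℂ) (hR : MDiff R) (hRχ : HasChar N m ψ' R)
    (hRpow : ∀ P Q : MvPolynomial (N.divisors) Kbar, evF N Q ≠ 0 → u = evF N P / evF N Q →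
      ∀ τ, Theta N P τ = Theta N Q τ * R τ ^ m) :
    Rel N m ψ' (Pic0.mk D₁) := by
  obtain ⟨P, Q, hQ, hPQ⟩ := evF_frac N u
  have hP : evF N P ≠ 0 := by
    intro h0
    rw [hPQ, h0, zero_div] at hu
    exact hu rfl
  haveI := Fermat.Agent.S18.H13.hasPrincipalDivisors_FF N
  obtain ⟨E, hE, hEdeg⟩ := HasPrincipalDivisors.exists_divisor (K := Kbar) (evF N Q) hQ
  set EQ : Divisor.degZero (K := Kbar) (F := FF N) := ⟨E, hEdeg⟩ with hEQ
  have hEQ0 : Pic0.mk EQ = 0 := by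
    refine (QuotientAddGroup.eq_zero_iff _).mpr ?_
    rw [AddSubgroup.mem_addSubgroupOf]
    exact ⟨evF N Q, hQ, hE⟩
  obtain ⟨k, rfl⟩ : ∃ k, m = k + 1 := Nat.exists_eq_succ_of_ne_zero hm
  refine ⟨P * Q ^ k, D₁ + EQ, ?_, ?_, ?_, ?_⟩
  · rw [map_mul, map_pow]
    exact mul_ne_zero hP (pow_ne_zero _ hQ)
  · intro v
    have h1 : v.ord u = v.ord (evF N P) - v.ord (evF N Q) := by
      rw [hPQ, div_eq_mul_inv, v.ord_mul hP (inv_ne_zero hQ), v.ord_inv]
      ring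
    have h2 : v.ord (evF N Q ^ k) = k * v.ord (evF N Q) := by
      have := v.ord_zpow (evF N Q) (k : ℤ)
      rwa [zpow_natCast] at this
    have h3 := hD₁ v
    have h4 : ((D₁ + EQ : Divisor.degZero (K := Kbar) (F := FF N)) : Divisor Kbar (FF N)) v
        = (D₁ : Divisor Kbar (FF N)) v + E v := rfl
    have hE' := hE v
    rw [map_mul, map_pow, v.ord_mul hP (pow_ne_zero _ hQ), h2, h4]
    push_cast at h3 ⊢
    linear_combination (-1 : ℤ) * h3 - h1 - ((k : ℤ) + 1) * hE'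
  · rw [Pic0.mk_add, hEQ0, add_zero]
  · refine ⟨fun τ => R τ * Theta N Q τ, hR.mul (mdiff_Theta N Q), ?_, ?_⟩
    · intro τ
      rw [mul_pow, map_mul, map_pow, Pi.mul_apply, Pi.pow_apply, hRpow P Q hQ hPQ τ]
      ring
    · intro γ τ
      show R ((γ : SL(2, ℤ)) • τ) * Theta N Q ((γ : SL(2, ℤ)) • τ) =
        chiOf (k + 1) ψ' γ * (R τ * Theta N Q τ)
      rw [hRχ γ τ, Theta_smul_of_mem N γ.2 Q τ, mul_assoc]

variable (N ℓ : ℕ) [NeZero N] [NeZero ℓ]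

set_option synthInstance.maxHeartbeats 400000 in
theorem normAlpha_ne_zero {x : FF (N * ℓ)} (hx : x ≠ 0) : normAlpha N ℓ x ≠ 0 := by
  letI := algebraAlong (heckeAlphaBar Kbar N ℓ)
  haveI : Module.Finite (FF N) ↥(modularFunctionFieldBar (N * ℓ)) :=
    Fermat.Agent.S29.H60.finiteAlong_FF (heckeAlphaBar Kbar N ℓ)
  rw [normAlpha_def]
  exact Algebra.norm_ne_zero_iff.mpr hx

/-- Divisor side: `m • α_* D = div (N_α u)` if `m • D = div u`. -/
theorem pushDegZero_alpha_smul (m : ℕ) {u : FF (N * ℓ)} (hu : u ≠ 0)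
    (D : Divisor.degZero (K := Kbar) (F := FF (N * ℓ)))
    (hD : ∀ v : Place Kbar (FF (N * ℓ)), v.ord u = m * (D : Divisor Kbar (FF (N * ℓ))) v)
    (v : Place Kbar (FF N)) :
    (m : ℤ) * (Fermat.Agent.S35.H60.pushDegZero (heckeAlphaBar Kbar N ℓ) D :
      Divisor Kbar (FF N)) v = v.ord (normAlpha N ℓ u) := by
  haveI := Fermat.Agent.S37.H75.hasPrincipalDivisors_FF (N * ℓ)
  have h1 : ∀ w : Place Kbar (FF (N * ℓ)),
      ((m : ℤ) • (D : Divisor Kbar (FF (N * ℓ)))) w = w.ord u := fun w => by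
    rw [Finsupp.smul_apply, smul_eq_mul, hD w]
  have h2 := Fermat.Agent.S42.H13.pushforwardAlong_apply_eq_ord (heckeAlphaBar Kbar N ℓ)
    (Fermat.Agent.S29.H60.isIntegral_FF _) (Fermat.Agent.S29.H60.finiteAlong_FF _)
    (Fermat.Agent.S29.H60.normFormulaAlong_FF _) hu h1 v
  rw [map_zsmul, Finsupp.smul_apply, smul_eq_mul] at h2
  exact h2

/-- Holomorphy of the coset product. -/
theorem mdiff_prodA (hcop : Nat.Coprime N ℓ) {W : ℍ → ℂ} (hW : MDiff W) :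
    MDiff (prodA hcop W) := by
  have e : prodA hcop W = W * fun τ => ∏ b ∈ (Finset.univ : Finset (Fin ℓ)),
      W (gamA N ℓ hcop b • τ) := rfl
  rw [e]
  exact hW.mul (Fermat.Agent.S29.H28.mdiff_finset_prod _ _ fun b _ =>
    Fermat.Agent.S42.H20.mdiff_comp_smul hW _)

/-- **Leaf (AJ-α)**: push-forward of the Kummer relation along `α`. -/
theorem rel_degAlpha (hℓ : ℓ.Prime) (hℓN : ¬ ℓ ∣ N) (m : ℕ) (hm : m ≠ 0)
    (ψ : Additive (Gamma0 (N * ℓ)) →+ ZMod m) (x : JZero (N * ℓ))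
    (hx : Rel (N * ℓ) m ψ x) :
    Rel N m (trAlpha N ℓ (ZMod m) ψ) (Fermat.Agent.S35.H60.degAlpha N ℓ x) := by
  haveI : NeZero m := ⟨hm⟩
  obtain ⟨C, D, hC, hord, rfl, G, hG, hGp, hGχ⟩ := hx
  have hcop : Nat.Coprime N ℓ := ((Nat.Prime.coprime_iff_not_dvd hℓ).mpr hℓN).symm
  rw [Fermat.Agent.S35.H60.degAlpha_mk]
  have hζ : zetaP m ^ m = 1 := zetaP_pow_self m hm
  refine rel_of_root N m hm _ _ (normAlpha N ℓ (evF (N * ℓ) C)) (normAlpha_ne_zero N ℓ hC)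
    (pushDegZero_alpha_smul N ℓ m hC D hord) (prodA hcop G) (mdiff_prodA N ℓ hcop hG) ?_ ?_
  · intro γ τ
    have hW : ∀ (γ : Gamma0 (N * ℓ)) (τ : ℍ), G ((γ : SL(2, ℤ)) • τ) =
        AddChar.zmodChar m hζ (ψ (Additive.ofMul γ)) * G τ := fun γ τ => hGχ γ τ
    exact prodA_smul hℓ hcop (AddChar.zmodChar m hζ) ψ hW γ τ
  · intro P Q hQ hPQ τ
    have h := theta_normAlpha N ℓ hℓ hℓN C P Q hQ hPQ.symm τ
    rw [h, ← prodA_pow]
    congr 1
    show Theta (N * ℓ) C τ * ∏ j : Fin ℓ, Theta (N * ℓ) C (gamA N ℓ hcop j • τ) =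
      G τ ^ m * ∏ b : Fin ℓ, G (gamA N ℓ hcop b • τ) ^ m
    rw [hGp τ]
    congr 1
    exact Finset.prod_congr rfl fun b _ => (hGp _).symm

end Fermat.Agent.S35.H28
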